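import Fermat.Agent.GalRep.Cyclo

/-!
# Involutions of `ℚ̄` act as inversion on roots of unity of odd order
-/

set_option autoImplicit false
set_option linter.unusedSectionVars false

namespace Fermat.Agent.CL

open Fermat.Agent.GalRep

variable {K : Type*} [Field K] [CharZero K] [IsAlgClosed K] {c : K ≃+* K}

theorem exists_sqrt (x : K) : ∃ y, y * y = x := by
  obtain ⟨y, hy⟩ := IsAlgClosed.exists_pow_nat_eq x (n := 2) (by norm_num)
  exact ⟨y, by rw [← sq, hy]⟩

/-- `c` does not fix a square root of `-1` -/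
theorem invol_i (hc : ∀ x, c (c x) = x) (hc1 : ∃ x, c x ≠ x) {i : K} (hi : i * i = -1) :
    c i = -i := by
  have hci : c i * c i = -1 := by rw [← map_mul, hi, map_neg, map_one]
  have h0 : (c i - i) * (c i + i) = 0 := by linear_combination hci - hi
  rcases mul_eq_zero.mp h0 with h | h
  · exfalso
    have hfix : c i = i := sub_eq_zero.mp h
    obtain ⟨α, hα⟩ := hc1
    set β := α - c α with hβ
    have hβ0 : β ≠ 0 := fun h => hα (sub_eq_zero.mp h).symm
    have hcβ : c β = -β := by rw [hβ, map_sub, hc]; ring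
    obtain ⟨γ, hγ⟩ := exists_sqrt β
    have hγ0 : γ ≠ 0 := by rintro rfl; rw [mul_zero] at hγ; exact hβ0 hγ.symm
    have hcγ : c γ * c γ = -β := by rw [← map_mul, hγ, hcβ]
    -- `u = γ c γ / β`
    set u := γ * c γ / β with hu
    have huu : u * u = -1 := by
      rw [hu, div_mul_div_comm, div_eq_iff (mul_ne_zero hβ0 hβ0)]
      linear_combination (c γ * c γ) * hγ + β * hcγ
    have hcu : c u = -u := by
      rw [hu, map_div₀, map_mul, hc, hcβ]
      rw [div_neg, mul_comm]
    have hcu' : c u = u := by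
      have h1 : (u - i) * (u + i) = 0 := by linear_combination huu - hi
      rcases mul_eq_zero.mp h1 with h2 | h2
      · rw [sub_eq_zero.mp h2, hfix]
      · have h3 : u = -i := by linear_combination h2
        rw [h3, map_neg, hfix]
    have hu0 : u = 0 := by
      have : 2 * u = 0 := by linear_combination hcu - hcu' 
      exact (mul_eq_zero.mp this).resolve_left two_ne_zero
    rw [hu0, mul_zero] at huu
    exact one_ne_zero (neg_eq_zero.mp huu.symm)
  · linear_combination h

/-- sums of two squares of fixed elements -/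
theorem invol_sq (hc : ∀ x, c (c x) = x) (hc1 : ∃ x, c x ≠ x) {x y : K} (hx : c x = x)
    (hy : c y = y) : ∃ z, c z = z ∧ z * z = x * x + y * y := by
  obtain ⟨i, hi⟩ := exists_sqrt (-1 : K)
  have hci := invol_i hc hc1 hi
  obtain ⟨w, hw⟩ := exists_sqrt (x + i * y)
  have hcw : c w * c w = x - i * y := by
    rw [← map_mul, hw, map_add, map_mul, hx, hy, hci]; ring
  refine ⟨w * c w, by rw [map_mul, hc, mul_comm], ?_⟩
  linear_combination (c w * c w) * hw + (x + i * y) * hcw - (y * y) * hi

theorem invol_sum (hc : ∀ x, c (c x) = x) (hc1 : ∃ x, c x ≠ x) {ι : Type*} (s : Finset ι)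
    (f : ι → K) (hf : ∀ j, c (f j) = f j) : ∃ z, c z = z ∧ z * z = ∑ j ∈ s, f j * f j := by
  classical
  induction s using Finset.induction_on with
  | empty => exact ⟨0, map_zero c, by simp⟩
  | insert a s ha ih =>
    obtain ⟨z, hz, hz'⟩ := ih
    obtain ⟨w, hw, hw'⟩ := invol_sq hc hc1 (hf a) hz
    exact ⟨w, hw, by rw [hw', Finset.sum_insert ha, hz']⟩

/-- fixed roots of unity of odd order are trivial -/
theorem invol_root (hc : ∀ x, c (c x) = x) (hc1 : ∃ x, c x ≠ x) {p : ℕ} (hp : Odd p) {ζ : K}
    (hζ : ζ ^ p = 1) (hf : c ζ = ζ) : ζ = 1 := by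
  by_contra hne
  obtain ⟨k, hk⟩ := hp
  have h1 : ∑ j ∈ Finset.range p, ζ ^ j = 0 := by
    have := geom_sum_mul ζ p
    rw [hζ, sub_self] at this
    exact (mul_eq_zero.mp this).resolve_right (sub_ne_zero.mpr hne)
  set η := ζ ^ (k + 1) with hη
  have hηζ : η * η = ζ := by
    rw [hη, ← pow_add, show k + 1 + (k + 1) = p + 1 by omega, pow_succ, hζ, one_mul]
  have hcη : c η = η := by rw [hη, map_pow, hf]
  obtain ⟨z, hz, hz'⟩ := invol_sum hc hc1 (Finset.range (2 * k)) (fun j => η ^ (j + 1))
    (fun j => by rw [map_pow, hcη])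
  have h2 : z * z = -1 := by
    rw [hk, Finset.sum_range_succ'] at h1
    rw [hz']
    have : ∀ j, η ^ (j + 1) * η ^ (j + 1) = ζ ^ (j + 1) := fun j => by rw [← mul_pow, hηζ]
    simp only [this]
    rw [pow_zero] at h1
    linear_combination h1
  have h3 := invol_i hc hc1 h2
  rw [hz] at h3
  have h4 : z = 0 := by
    have : 2 * z = 0 := by linear_combination h3
    exact (mul_eq_zero.mp this).resolve_left two_ne_zero
  rw [h4, mul_zero] at h2
  exact one_ne_zero (neg_eq_zero.mp h2.symm)

theorem cyc_involution {p : ℕ} (hp : Odd p) [NeZero p] {c : GQ} (hc : c * c = 1)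
    (hc1 : c ≠ 1) : cyc p c = -1 := by
  have hcc : ∀ x, c.toRingEquiv (c.toRingEquiv x) = x := fun x => by
    have := DFunLike.congr_fun hc x
    exact this
  have hne : ∃ x, c.toRingEquiv x ≠ x := by
    by_contra hcon
    push Not at hcon
    exact hc1 (AlgEquiv.ext hcon)
  have hpos : 0 < p := Nat.pos_of_ne_zero (NeZero.ne p)
  have h1 : cyc p c = ((p - 1 : ℕ) : ZMod p) := by
    refine cyc_eq_of_forall p c (p - 1) fun x hx => ?_
    have hx0 : x ≠ 0 := by
      rintro rfl
      rw [zero_pow hpos.ne'] at hx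
      exact zero_ne_one hx
    have h2 : (x * c x) = 1 := by
      refine invol_root hcc hne hp ?_ ?_
      · rw [mul_pow, ← map_pow, hx, map_one, mul_one]
      · change c (x * c x) = x * c x
        rw [map_mul]
        have := hcc x
        change c (c x) = x at this
        rw [this, mul_comm]
    apply mul_left_cancel₀ hx0
    rw [h2, ← pow_succ', Nat.sub_add_cancel hpos, hx]
  rw [h1, Nat.cast_sub hpos, ZMod.natCast_self, zero_sub, Nat.cast_one]

end Fermat.Agent.CL
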