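import Fermat.Agent.CL.Model
import Fermat.Agent.CL.Invol

/-!
# Absolute irreducibility of residual representations congruent to `W[p]`
-/

set_option autoImplicit false
set_option linter.unusedSectionVars false
set_option linter.style.haveILetI false

namespace Fermat.Agent.CL

open WeierstrassCurve WeierstrassCurve.Affine WeierstrassCurve.Affine.Point
open Fermat.Agent.EC Fermat.Agent.GalRep Fermat.Agent.PRem Polynomial Module
open scoped TensorProduct

noncomputable section

local notation "Qb" => AlgebraicClosure ℚ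

/-- abstract form: a 2-dimensional representation of `G` over `k'` whose trace is that of an
absolutely irreducible representation over `𝔽_p` is irreducible. -/
theorem irr_of_trace {p : ℕ} [hp : Fact p.Prime] {G : Type*} [Group G] {k' : Type*} [Field k']
    [Algebra (ZMod p) k'] {E V' : Type*} [AddCommGroup E] [Module (ZMod p) E] [AddCommGroup V']
    [Module k' V'] (hV : finrank k' V' = 2) (hE : finrank (ZMod p) E = 2) (h2 : (2 : k') ≠ 0)
    {ρ : Representation (ZMod p) G E} {ρ' : G →* Module.End k' V'}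
    (htr : ∀ g, LinearMap.trace k' V' (ρ' g) =
      algebraMap (ZMod p) k' (LinearMap.trace (ZMod p) E (ρ g)))
    {a b : Module.End (ZMod p) E} (hab : (a * b - b * a) * (a * b - b * a) = 1)
    (hsurj : Function.Surjective ρ.asAlgebraHom) (N : Submodule k' V')
    (hN : ∀ g, ∀ x ∈ N, ρ' g x ∈ N) : N = ⊥ ∨ N = ⊤ := by
  haveI : FiniteDimensional k' V' := FiniteDimensional.of_finrank_pos (by rw [hV]; norm_num)
  haveI : FiniteDimensional (ZMod p) E := FiniteDimensional.of_finrank_pos (by rw [hE]; norm_num)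
  by_contra hcon
  push Not at hcon
  obtain ⟨w, hwN, hw0⟩ := Submodule.exists_mem_ne_zero_of_ne_bot hcon.1
  obtain ⟨v, hv⟩ : ∃ v, v ∉ N := by
    by_contra hall
    push Not at hall
    exact hcon.2 (Submodule.eq_top_iff'.2 hall)
  have hli : LinearIndependent k' ![w, v] := by
    rw [LinearIndependent.pair_iff]
    intro s t hst
    have ht : t = 0 := by
      by_contra ht
      apply hv
      have : v = -(t⁻¹ * s) • w := by
        have h1 : t • v = -(s • w) := eq_neg_of_add_eq_zero_right hst
        rw [neg_smul, mul_smul, ← smul_neg, ← h1, smul_smul, inv_mul_cancel₀ ht, one_smul]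
      rw [this]
      exact N.smul_mem _ hwN
    subst ht
    rw [zero_smul, add_zero] at hst
    exact ⟨(smul_eq_zero.mp hst).resolve_right hw0, rfl⟩
  let B : Basis (Fin 2) k' V' := basisOfLinearIndependentOfCardEqFinrank hli (by simp [hV])
  have hB0 : B 0 = w := by simp [B]
  have hB1 : B 1 = v := by simp [B]
  let M : G →* Matrix (Fin 2) (Fin 2) k' :=
    { toFun := fun g => LinearMap.toMatrixAlgEquiv B (ρ' g)
      map_one' := by rw [map_one, map_one]
      map_mul' := fun g h => by rw [map_mul, map_mul] }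
  have hM10 : ∀ g, M g 1 0 = 0 := by
    intro g
    change LinearMap.toMatrixAlgEquiv B (ρ' g) 1 0 = 0
    rw [LinearMap.toMatrixAlgEquiv_apply, hB0]
    by_contra hc
    apply hv
    have h1 := B.sum_repr (ρ' g w)
    rw [Fin.sum_univ_two, hB0, hB1] at h1
    have h3 : v = (B.repr (ρ' g w) 1)⁻¹ • (ρ' g w - B.repr (ρ' g w) 0 • w) := by
      have h4 : ρ' g w - B.repr (ρ' g w) 0 • w = B.repr (ρ' g w) 1 • v := by
        rw [sub_eq_iff_eq_add, add_comm]
        exact h1.symm
      rw [h4, smul_smul, inv_mul_cancel₀ hc, one_smul]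
    rw [h3]
    exact N.smul_mem _ (N.sub_mem (hN g w hwN) (N.smul_mem _ hwN))
  let F : MonoidAlgebra (ZMod p) G →ₐ[ZMod p] Matrix (Fin 2) (Fin 2) k' :=
    MonoidAlgebra.lift (ZMod p) (Matrix (Fin 2) (Fin 2) k') G M
  have hFs : ∀ g (r : ZMod p), F (MonoidAlgebra.single g r) = r • M g := fun g r =>
    MonoidAlgebra.lift_single M g r
  have hF : ∀ x, F x 1 0 = 0 ∧ (F x).trace =
      algebraMap (ZMod p) k' (LinearMap.trace (ZMod p) E (ρ.asAlgebraHom x)) := by
    intro x
    induction x using MonoidAlgebra.induction_on with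
    | of g =>
      rw [MonoidAlgebra.of_apply, hFs, one_smul]
      refine ⟨hM10 g, ?_⟩
      have h1 : ρ.asAlgebraHom (MonoidAlgebra.single g 1) = ρ g := by
        rw [Representation.asAlgebraHom_single, one_smul]
      rw [h1, ← htr g, LinearMap.trace_eq_matrix_trace k' B]
      rfl
    | add x y hx hy =>
      rw [map_add, map_add, map_add, map_add, Matrix.trace_add, Matrix.add_apply, hx.1, hy.1,
        hx.2, hy.2]
      exact ⟨add_zero _, rfl⟩
    | smul r x hx =>
      rw [map_smul, map_smul, Matrix.smul_apply, hx.1, smul_zero, Matrix.trace_smul, hx.2,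
        map_smul, smul_eq_mul, map_mul, Algebra.smul_def]
      exact ⟨rfl, rfl⟩
  obtain ⟨α, hα⟩ := hsurj a
  obtain ⟨β, hβ⟩ := hsurj b
  have h1 := (hF ((α * β - β * α) * (α * β - β * α))).2
  rw [map_mul ρ.asAlgebraHom, map_sub ρ.asAlgebraHom, map_mul ρ.asAlgebraHom,
    map_mul ρ.asAlgebraHom, hα, hβ, hab, LinearMap.trace_one, hE, map_natCast] at h1
  have h3 : (F ((α * β - β * α) * (α * β - β * α))).trace = 0 := by
    rw [map_mul, map_sub, map_mul, map_mul]
    have hα0 := (hF α).1
    have hβ0 := (hF β).1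
    simp only [Matrix.trace_fin_two, Matrix.mul_apply, Fin.sum_univ_two, Matrix.sub_apply, hα0, hβ0]
    ring
  rw [h3] at h1
  apply h2
  exact_mod_cast h1.symm

/-- the matrix representation -/
def matOf {G k V : Type*} [Group G] [Field k] [AddCommGroup V] [Module k V] (ρ : G →* Module.End k V)
    (b : Basis (Fin 2) k V) : G →* Matrix (Fin 2) (Fin 2) k where
  toFun g := LinearMap.toMatrixAlgEquiv b (ρ g)
  map_one' := by rw [map_one, map_one]
  map_mul' g h := by rw [map_mul, map_mul]

theorem matOf_trace {G k V : Type*} [Group G] [Field k] [AddCommGroup V] [Module k V]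
    (ρ : G →* Module.End k V) (b : Basis (Fin 2) k V) (g : G) :
    (matOf ρ b g).trace = LinearMap.trace k V (ρ g) := by
  rw [LinearMap.trace_eq_matrix_trace k b]; rfl

theorem matOf_det {G k V : Type*} [Group G] [Field k] [AddCommGroup V] [Module k V]
    (ρ : G →* Module.End k V) (b : Basis (Fin 2) k V) (g : G) :
    (matOf ρ b g).det = LinearMap.det (ρ g) := by
  rw [← LinearMap.det_toMatrix b]; rfl

open IsLocalRing in
/-- **absolute irreducibility** of the residual representations congruent to `W[p]` -/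
theorem absIrr {W : WeierstrassCurve ℤ} (hΔ : W.Δ ≠ 0) {p : ℕ} [hp : Fact p.Prime] (hp2 : p ≠ 2)
    (hirr : W.ModRepIsIrreducible p) {B : Type} [CommRing B] [IsLocalRing B]
    (hpB : (p : B) ∈ maximalIdeal B) (ρ : GaloisRepAdic B) {S : Set ℕ} (hS : S.Finite)
    (hρ : ∀ ℓ : ℕ, ℓ.Prime → ℓ ∉ S → ∀ P : ValuationSubring (AlgebraicClosure ℚ),
      P.LiesOverPrime ℓ → ∀ σ : GQ, P.IsFrobeniusAt σ ℓ →
        LinearMap.charpoly (ρ.ρ σ) = X ^ 2 - C ((W.apOfModel ℓ : ℤ) : B) * X + C ((ℓ : B))) :
    ρ.residual.IsAbsolutelyIrreducible := by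
  haveI := isElliptic_EQ hΔ
  let k := ResidueField B
  let k' := AlgebraicClosure k
  haveI : CharP k p := by
    have h0 : ((p : ℕ) : k) = 0 := by
      have := (residue_eq_zero_iff (p : B)).mpr hpB
      rwa [map_natCast] at this
    exact (CharP.charP_iff_prime_eq_zero hp.out).mpr h0
  haveI : CharP k' p := charP_of_injective_algebraMap (algebraMap k k').injective p
  letI : Algebra (ZMod p) k' := ZMod.algebra k' p
  have hf := frobRel_E (E := EQ W) hp2 (isIntegralModelOf_EQ W) 1
  have hSf : (badS W 1 p).Finite := finite_badS (E := EQ W) (isIntegralModelOf_EQ W) one_ne_zero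
  have hpb : p ∈ badS W 1 p := Or.inl (by rw [one_mul])
  have hE : finrank (ZMod p) (TE (EQ W) p) = 2 := finrank_TE hp2
  have hirr' := irr_repE (E := EQ W) (p := p) hirr
  haveI : FiniteDimensional (ZMod p) (TE (EQ W) p) :=
    FiniteDimensional.of_finrank_pos (by rw [hE]; norm_num)
  have h2p : (2 : ZMod p) ≠ 0 := by
    intro h2
    have : ((2 : ℕ) : ZMod p) = 0 := by exact_mod_cast h2
    rw [ZMod.natCast_eq_zero_iff, Nat.prime_dvd_prime_iff_eq hp.out Nat.prime_two] at this
    exact hp2 this
  have h2k : (2 : k') ≠ 0 := by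
    intro h2
    apply h2p
    apply (algebraMap (ZMod p) k').injective
    rw [map_ofNat, _root_.map_zero, h2]
  have hdet : LinearMap.det (repE (EQ W) p complexConjugation) = -1 := by
    rw [hf.det_eq_cyc hE hirr' hSf hpb, cyc_complexConjugation]
  obtain ⟨hsurj, a, b, hab⟩ := surjective_of_irr hE h2p hirr' complexConjugation_mul_self hdet
  -- the representation over `k'`
  let R' := ρ.residual.baseChange k'
  have hV : finrank k' R'.V = 2 := R'.finrank_eq
  haveI : FiniteDimensional k' R'.V := FiniteDimensional.of_finrank_pos (by rw [hV]; norm_num)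
  let bE := finBasisOfFinrankEq (ZMod p) (TE (EQ W) p) hE
  let b' := finBasisOfFinrankEq k' R'.V hV
  have hps' := isPseudoRep_of_matrix (matOf R'.ρ b')
  have hpsE := (isPseudoRep_of_matrix (matOf (repE (EQ W) p) bE)).comp (algebraMap (ZMod p) k')
  have hc' : IsLocConst (fun g => (matOf R'.ρ b' g).trace) := by
    obtain ⟨L, hL, h1⟩ := R'.factorsThroughFiniteLevel
    refine ⟨L, hL, fun σ hσ g => ?_⟩
    change (matOf R'.ρ b' (g * σ)).trace = _
    have h3 : matOf R'.ρ b' σ = 1 := by
      change LinearMap.toMatrixAlgEquiv b' (R'.ρ σ) = 1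
      rw [h1 σ hσ, map_one]
    rw [map_mul, h3, mul_one]
  have hcE : IsLocConst (fun g => algebraMap (ZMod p) k' (matOf (repE (EQ W) p) bE g).trace) :=
    hf.isLocConst.comp (fun x => algebraMap (ZMod p) k'
      (LinearMap.toMatrixAlgEquiv bE x).trace)
  have key : (fun g => (matOf R'.ρ b' g).trace) =
      fun g => algebraMap (ZMod p) k' (matOf (repE (EQ W) p) bE g).trace := by
    refine IsPseudoRep.t_eq_of_frobenius hps' hpsE hc' hcE (hS.union hSf) ?_
    intro ℓ hℓ hℓS A hA τ hτ
    rw [Set.mem_union, not_or] at hℓS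
    obtain ⟨h3, h4⟩ := hf.trace_frob hE hirr' hSf hpb hℓ hℓS.2 hA hτ
    have h5 := hρ ℓ hℓ hℓS.1 A hA τ hτ
    have h6 : LinearMap.charpoly (R'.ρ τ) = X ^ 2 - C ((W.apOfModel ℓ : ℤ) : k') * X +
        C ((ℓ : k')) := by
      change LinearMap.charpoly (((ρ.ρ τ).baseChange k).baseChange k') = _
      rw [LinearMap.charpoly_baseChange, LinearMap.charpoly_baseChange, h5]
      simp only [Polynomial.map_sub, Polynomial.map_add, Polynomial.map_mul, Polynomial.map_pow,
        Polynomial.map_X, Polynomial.map_intCast, Polynomial.map_natCast, map_intCast, map_natCast]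
      have e1 : ((W.apOfModel ℓ : ℤ) : k'[X]) = C ((W.apOfModel ℓ : ℤ) : k') :=
        (map_intCast (C : k' →+* k'[X]) _).symm
      have e2 : ((ℓ : ℕ) : k'[X]) = C ((ℓ : ℕ) : k') :=
        (map_natCast (C : k' →+* k'[X]) _).symm
      rw [← e1, ← e2]
    obtain ⟨h7, h8⟩ := trace_det_of_charpoly (R'.ρ τ) b' h6
    constructor
    · rw [matOf_trace, matOf_trace, h3, map_intCast, ← h7, LinearMap.trace_eq_matrix_trace k' b']
    · rw [matOf_det, matOf_det, h4, map_natCast, ← h8, LinearMap.det_toMatrix]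
  intro N hN
  refine irr_of_trace (p := p) (ρ' := R'.ρ) hV hE h2k (fun g => ?_) hab hsurj N hN
  have := congrFun key g
  simp only [matOf_trace] at this
  exact this

open IsLocalRing in
/-- oddness -/
theorem isOdd_of_D {p : ℕ} [hp : Fact p.Prime] (hp2 : p ≠ 2) {B : Type} [CommRing B]
    [IsLocalRing B] [IsHausdorff (maximalIdeal B) B] (hpB : (p : B) ∈ maximalIdeal B)
    (ρ : GaloisRepAdic B) {D : GQ → B}
    (hD : ∀ n g, Ideal.Quotient.mk (maximalIdeal B ^ n) (D g) =
      (((cyc (p ^ n) g).val : ℕ) : B ⧸ maximalIdeal B ^ n))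
    (hdet : ∀ g, LinearMap.det (ρ.ρ g) = D g) : ρ.residual.IsOdd := by
  intro c hc hc1
  have hD1 : D c = -1 := by
    refine eq_of_forall_mk_eq (maximalIdeal B) fun n => ?_
    rw [hD, map_neg, map_one, eq_neg_iff_add_eq_zero]
    have hodd : Odd (p ^ n) := (hp.out.odd_of_ne_two hp2).pow
    have h1 := cyc_involution hodd hc hc1
    have h2 : ((((cyc (p ^ n) c).val + 1 : ℕ)) : ZMod (p ^ n)) = 0 := by
      push_cast
      rw [ZMod.natCast_zmod_val, h1, neg_add_cancel]
    rw [ZMod.natCast_eq_zero_iff] at h2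
    obtain ⟨m, hm⟩ := h2
    have h3 : (((cyc (p ^ n) c).val + 1 : ℕ) : B ⧸ maximalIdeal B ^ n) = 0 := by
      rw [hm, Nat.cast_mul, natCast_val_eq_zero_of_dvd hpB, zero_mul]
    exact_mod_cast h3
  change LinearMap.det ((ρ.ρ c).baseChange (ResidueField B)) = -1
  rw [LinearMap.det_baseChange, hdet, hD1, map_neg, map_one]

end

end Fermat.Agent.CL
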