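import Mathlib.NumberTheory.Padics.RingHoms
import Mathlib.RingTheory.DedekindDomain.IntegralClosure
import Mathlib.RingTheory.DiscreteValuationRing.TFAE
import Mathlib.FieldTheory.IsAlgClosed.AlgebraicClosure
import Fermat.Prelude.Thm_Algebra_finite_maximalSpectrum_and_bijective_localization_of_module_finite
import Fermat.Prelude.Thm_IsLocalRing_isAdicComplete_of_module_finite


/-!
# Embedding an order into a complete discrete valuation ring
-/

set_option autoImplicit false

namespace Fermat.Agent.CL

open IsLocalRing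

/-- a domain which is finite over a complete local ring is local -/
theorem isLocalRing_of_finite {𝒪 : Type} [CommRing 𝒪] [IsLocalRing 𝒪] [IsNoetherianRing 𝒪]
    [IsAdicComplete (IsLocalRing.maximalIdeal 𝒪) 𝒪]
    (A : Type) [CommRing A] [IsDomain A] [Algebra 𝒪 A] [Module.Finite 𝒪 A] : IsLocalRing A := by
  classical
  obtain ⟨-, hbij, -, -⟩ :=
    Algebra.finite_maximalSpectrum_and_bijective_localization_of_module_finite (𝒪 := 𝒪) A
  obtain ⟨I, hI⟩ := Ideal.exists_maximal A
  refine IsLocalRing.of_unique_max_ideal ⟨I, hI, fun J hJ => ?_⟩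
  by_contra hne
  let i : MaximalSpectrum A := ⟨I, hI⟩
  let j : MaximalSpectrum A := ⟨J, hJ⟩
  have hij : j ≠ i := fun h => hne (congrArg MaximalSpectrum.asIdeal h)
  obtain ⟨e, he⟩ := hbij.2 (Pi.single i 1)
  obtain ⟨f, hf⟩ := hbij.2 (Pi.single j 1)
  have h1 : e * f = 0 := by
    apply hbij.1
    rw [map_mul, he, hf, map_zero]
    funext k
    rw [Pi.mul_apply, Pi.zero_apply]
    by_cases hk : k = i
    · subst hk
      rw [Pi.single_eq_of_ne (Ne.symm hij) (1 : _), mul_zero]
    · rw [Pi.single_eq_of_ne hk (1 : _), zero_mul]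
  rcases mul_eq_zero.mp h1 with h | h
  · have := congrFun he i
    rw [h, map_zero, Pi.zero_apply, Pi.single_eq_same] at this
    exact zero_ne_one this
  · have := congrFun hf j
    rw [h, map_zero, Pi.zero_apply, Pi.single_eq_same] at this
    exact zero_ne_one this

set_option linter.style.haveILetI false in
/-- **embedding into a complete discrete valuation ring** -/
theorem exists_padic (R : Type*) [CommRing R] [IsDomain R] [CharZero R] [Module.Finite ℤ R]
    (p : ℕ) [hp : Fact p.Prime] :
    ∃ (O' : Type) (_ : CommRing O') (_ : IsDomain O') (_ : IsDiscreteValuationRing O')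
      (_ : IsAdicComplete (maximalIdeal O') O') (_ : Finite (ResidueField O')) (_ : CharZero O'),
      (p : O') ∈ maximalIdeal O' ∧ Nonempty (R →+* O') := by
  classical
  let K := AlgebraicClosure ℚ_[p]
  haveI : FaithfulSMul ℤ R := (faithfulSMul_iff_algebraMap_injective ℤ R).mpr
    (fun a b h => by
      have h' : (a : R) = (b : R) := by simpa using h
      exact Int.cast_injective h')
  haveI : CharZero K := charZero_of_injective_algebraMap (algebraMap ℚ_[p] K).injective
  haveI : Algebra.IsIntegral ℤ R := inferInstance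
  haveI : Algebra.IsAlgebraic ℤ R := inferInstance
  let φ : R →ₐ[ℤ] K := IsAlgClosed.lift
  obtain ⟨s, hs⟩ := (Module.Finite.fg_top : (⊤ : Submodule ℤ R).FG)
  let L : IntermediateField ℚ_[p] K := IntermediateField.adjoin ℚ_[p] (φ '' (s : Set R))
  haveI hfin : FiniteDimensional ℚ_[p] L := by
    haveI : Finite ↥(φ '' (s : Set R)) := (s.finite_toSet.image φ)
    exact IntermediateField.finiteDimensional_adjoin fun x _ => Algebra.IsIntegral.isIntegral x
  let A : Type := integralClosure ℤ_[p] L
  haveI : IsFractionRing ℤ_[p] ℚ_[p] := inferInstance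
  haveI : Module.Finite ℤ_[p] A := IsIntegralClosure.finite ℤ_[p] ℚ_[p] L A
  haveI : IsDedekindDomain A := integralClosure.isDedekindDomain ℤ_[p] ℚ_[p] L
  haveI : IsLocalRing A := isLocalRing_of_finite (𝒪 := ℤ_[p]) A
  have hinj : Function.Injective (algebraMap ℤ_[p] A) := by
    intro a b hab
    have h1 : algebraMap ℤ_[p] L a = algebraMap ℤ_[p] L b := congrArg Subtype.val hab
    rw [IsScalarTower.algebraMap_apply ℤ_[p] ℚ_[p] L, IsScalarTower.algebraMap_apply ℤ_[p] ℚ_[p] L]
      at h1
    exact IsFractionRing.injective ℤ_[p] ℚ_[p] ((algebraMap ℚ_[p] L).injective h1)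
  haveI : FaithfulSMul ℤ_[p] A := (faithfulSMul_iff_algebraMap_injective ℤ_[p] A).mpr hinj
  haveI : Algebra.IsIntegral ℤ_[p] A := inferInstance
  haveI : IsLocalHom (algebraMap ℤ_[p] A) := inferInstance
  haveI : CharZero A := charZero_of_injective_algebraMap hinj
  have hpA : (p : A) ∈ maximalIdeal A := by
    rw [mem_maximalIdeal, mem_nonunits_iff, ← map_natCast (algebraMap ℤ_[p] A), isUnit_map_iff]
    exact PadicInt.p_nonunit
  have hnf : ¬ IsField A := by
    intro hf
    letI := hf.toField
    have h0 : (p : A) ≠ 0 := Nat.cast_ne_zero.mpr hp.out.ne_zero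
    exact hpA (isUnit_iff_ne_zero.mpr h0)
  haveI : IsDiscreteValuationRing A := ((IsDiscreteValuationRing.TFAE A hnf).out 0 2 :
    IsDiscreteValuationRing A ↔ IsDedekindDomain A).mpr inferInstance
  have hcomp : IsAdicComplete (maximalIdeal A) A :=
    IsLocalRing.isAdicComplete_of_module_finite (𝒪 := ℤ_[p]) (T := A)
  haveI hfr : Finite (ResidueField ℤ_[p]) := Finite.of_equiv (ZMod p) PadicInt.residueField.symm.toEquiv
  haveI : Finite (ResidueField A) := Module.finite_of_finite (ResidueField ℤ_[p])
  have hφL : ∀ x, φ x ∈ L := by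
    intro x
    have hx : x ∈ Submodule.span ℤ (s : Set R) := by rw [hs]; trivial
    induction hx using Submodule.span_induction with
    | mem x hx => exact IntermediateField.subset_adjoin _ _ ⟨x, hx, rfl⟩
    | zero => rw [map_zero]; exact zero_mem _
    | add x y _ _ h1 h2 => rw [map_add]; exact add_mem h1 h2
    | smul n x _ h1 => rw [map_smul]; exact zsmul_mem h1 n
  let ψ : R →+* L := φ.toRingHom.codRestrict L.toSubring hφL
  have hint : ∀ x, ψ x ∈ integralClosure ℤ_[p] L := by
    intro x
    have h1 : IsIntegral ℤ (ψ x) := (Algebra.IsIntegral.isIntegral (R := ℤ) x).map ψ.toIntAlgHom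
    exact h1.tower_top
  exact ⟨A, inferInstance, inferInstance, inferInstance, inferInstance, inferInstance, inferInstance,
    hpA, ⟨ψ.codRestrict (integralClosure ℤ_[p] L).toSubring hint⟩⟩

end Fermat.Agent.CL
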