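import Fermat.Agent.AL.Newform
import Fermat.Agent.AL.Mult
import Fermat.Agent.CL.AbsIrr
import Fermat.Agent.CL.Padic
import Fermat.Agent.S35
import Fermat.Agent.Eigen.Character
import Fermat.Agent.Places.Existence
import Fermat.Agent.Places.Frobenius
import Fermat.Agent.EllFrob.RedFrob
import Fermat.Prelude.Def_WeierstrassCurve_ConductorLevel

/-!
# Comparison of a newform and an elliptic curve
-/

set_option autoImplicit false
set_option linter.unusedSectionVars false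
set_option linter.style.haveILetI false

namespace Fermat.Agent.CL

open WeierstrassCurve ModularFormClass CuspForm
open Fermat.Agent.GalRep Fermat.Agent.AL Fermat.Agent.MFLib

noncomputable section

open UpperHalfPlane in
theorem exists_at_level {M N : ℕ} [NeZero N] (hM : M ∣ N)
    {g : CuspForm (CongruenceSubgroup.Gamma0 M) 2} (hg : g.IsNormalizedEigenform) :
    ∃ h : CuspForm (CongruenceSubgroup.Gamma0 N) 2, h.IsNormalizedEigenform ∧
      ∀ l : ℕ, l.Prime → ¬ l ∣ N → qCoeff h l = qCoeff g l := by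
  have hN : N ≠ 0 := NeZero.ne N
  have hM0 : NeZero M := ⟨fun h => hN (by rw [h] at hM; exact Nat.eq_zero_of_zero_dvd hM)⟩
  have hh : IsCF (CongruenceSubgroup.Gamma0 N) 2 (g : ℍ → ℂ) :=
    isCF_mono hM (IsCF.of_class g)
  obtain ⟨g', hg', hgχ⟩ := exists_normalized (M := N) (A := {l | l.Prime ∧ ¬ l ∣ N})
    (fun l hl => ⟨hl.1, hl.2⟩) (χ := fun l => qCoeff g l)
    (f := hh.toCuspForm) (fun h0 => hg.ne_zero (by
      have := congrArg (fun F : CuspForm (CongruenceSubgroup.Gamma0 N) 2 => (F : ℍ → ℂ)) h0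
      exact DFunLike.coe_injective this)) (fun l hl => by
        have := heckeT_eq_of_normalized (N := M) hg hl.1 (fun hd => hl.2 (hd.trans hM))
        exact this)
  exact ⟨g', hg', fun l hl hlN => hgχ l ⟨hl, hlN⟩⟩

open IsLocalRing Polynomial in
/-- **comparison** of a Galois representation with the Tate module of `W` -/
theorem compare {W : WeierstrassCurve ℤ} (hΔ : W.Δ ≠ 0) {lam : ℕ} [hlam : Fact lam.Prime]
    (hl2 : lam ≠ 2) {B : Type} [CommRing B] [IsLocalRing B] [IsNoetherianRing B]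
    [IsAdicComplete (maximalIdeal B) B] (hB : (lam : B) ∈ maximalIdeal B) {S : Set ℕ}
    (hS : S.Finite) (hlamS : lam ∈ S) (hbad : ∀ ℓ : ℕ, ℓ.Prime → (ℓ : ℤ) ∣ W.Δ → ℓ ∈ S)
    (ρ : GaloisRepAdic B)
    (hρ : ∀ ℓ : ℕ, ℓ.Prime → ℓ ∉ S → ∀ P : ValuationSubring (AlgebraicClosure ℚ),
      P.LiesOverPrime ℓ → ∀ σ : GQ, P.IsFrobeniusAt σ ℓ →
        LinearMap.charpoly (ρ.ρ σ) = X ^ 2 - C ((W.apOfModel ℓ : ℤ) : B) * X + C ((ℓ : B))) :
    ∃ t D : GQ → B, (∀ g, LinearMap.charpoly (ρ.ρ g) = X ^ 2 - C (t g) * X + C (D g)) ∧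
      (∀ g, LinearMap.det (ρ.ρ g) = D g) ∧
      (∀ n g, Ideal.Quotient.mk (maximalIdeal B ^ n) (D g) =
        (((cyc (lam ^ n) g).val : ℕ) : B ⧸ maximalIdeal B ^ n)) ∧
      (∀ q : ℕ, q.Prime → q ≠ lam → ((q : ℤ) ∣ W.Δ → ¬ (q : ℤ) ∣ W.c₄) →
        ∀ A : ValuationSubring (AlgebraicClosure ℚ), A.LiesOverPrime q →
        ∀ σ ∈ A.inertiaSubgroupIn ℚ, t σ = 2 ∧ D σ = 1) ∧
      (∀ q : ℕ, q.Prime → q ≠ lam → ¬ (q : ℤ) ∣ W.Δ →
        ∀ A : ValuationSubring (AlgebraicClosure ℚ), A.LiesOverPrime q →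
        ∀ σ : GQ, A.IsFrobeniusAt σ q → t σ = ((W.apOfModel q : ℤ) : B)) := by
  obtain ⟨t, D, h, hlev⟩ := exists_pseudo hΔ hl2 hS hlamS hbad hB
  have hch := charpoly_eq_of_frobenius h hS ρ hρ
  refine ⟨t, D, hch, fun g => ?_, h.D_eq, ?_, ?_⟩
  · let e : Module.Basis (Fin 2) B ρ.V := Module.finBasisOfFinrankEq B ρ.V ρ.finrank_eq
    have := (trace_det_of_charpoly (ρ.ρ g) e (hch g)).2
    rwa [LinearMap.det_toMatrix] at this
  · intro q hq hqlam hss A hA σ hσ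
    refine ⟨hlev.trace_inertia hΔ hl2 hB hq hqlam hss hA hσ, ?_⟩
    refine eq_of_forall_mk_eq (maximalIdeal B) fun n => ?_
    rw [h.D_eq, cyc_inertia (Nat.Coprime.pow_right _
      ((Nat.coprime_primes hq hlam.out).mpr hqlam)) hA hσ, map_one]
    rcases Nat.eq_zero_or_pos n with rfl | hn
    · have : Subsingleton (B ⧸ maximalIdeal B ^ 0) := by
        rw [Ideal.Quotient.subsingleton_iff, pow_zero, Ideal.one_eq_top]
      exact Subsingleton.elim _ _
    · haveI : Fact (1 < lam ^ n) := ⟨Nat.one_lt_pow hn.ne' hlam.out.one_lt⟩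
      rw [ZMod.val_one, Nat.cast_one]
  · intro q hq hqlam hd A hA σ hσ
    exact hlev.trace_frob hl2 hB hq hqlam hd hA hσ

end

end Fermat.Agent.CL
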