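import Fermat.Agent.CL.Lift
import Fermat.Prelude.Def_FLTPrelim_ModularRep

/-!
# S58 from S36
-/

set_option autoImplicit false
set_option linter.unusedSectionVars false
set_option linter.style.haveILetI false

namespace Fermat.Agent.CL

open WeierstrassCurve ModularFormClass CuspForm Polynomial IsLocalRing
open Fermat.Agent.GalRep Fermat.Agent.AL Fermat.Agent.MFLib Fermat.Agent.Eigen

noncomputable section

/-- the statement of S36 -/
def S36Statement : Prop :=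
    ∀ {M : ℕ} [NeZero M] {g : CuspForm (CongruenceSubgroup.Gamma0 M) 2} (_ : g.IsNewform)
    (lam : ℕ) [Fact lam.Prime]
    (S : Finset ℕ)
    (O' : Type) [CommRing O'] [IsDomain O'] [IsDiscreteValuationRing O']
    [IsAdicComplete (IsLocalRing.maximalIdeal O') O'] [Finite (IsLocalRing.ResidueField O')]
    [CharZero O'] (_ : (lam : O') ∈ IsLocalRing.maximalIdeal O')
    (_ : lam ≠ 2)
    (chig : CuspForm.heckeAlgebra M 2 (↑S : Set ℕ) →+* ℂ)
    (_ : ∀ (ℓ : ℕ) (hℓ : ℓ.Prime) (hℓM : ¬ ℓ ∣ M) (hℓS : ℓ ∉ (↑S : Set ℕ)),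
      chig (CuspForm.heckeAlgebra.T hℓ hℓM hℓS) = ModularFormClass.qCoeff g ℓ)
    (iota : chig.range →+* O')
    (_ : lam ∈ S) (_ : ∀ q : ℕ, q.Prime → q ∣ M → q ∈ S)
    (_ : ∀ (O'' : Type) [CommRing O''] [IsDomain O''] [IsDiscreteValuationRing O'']
      [IsAdicComplete (IsLocalRing.maximalIdeal O'') O''] [Finite (IsLocalRing.ResidueField O'')] [CharZero O'']
      [Algebra O' O''] [Module.Finite O' O''] [IsLocalHom (algebraMap O' O'')],
      Function.Injective (algebraMap O' O'') → ∀ (ρ : GaloisRepAdic O''),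
      (∀ (ℓ : ℕ) (hℓ : ℓ.Prime) (_ : ℓ ≠ lam) (hℓM : ¬ ℓ ∣ M) (hℓS : ℓ ∉ (↑S : Set ℕ)),
        ∀ A : ValuationSubring (AlgebraicClosure ℚ), A.LiesOverPrime ℓ →
          ∀ σ : AlgebraicClosure ℚ ≃ₐ[ℚ] AlgebraicClosure ℚ, A.IsFrobeniusAt σ ℓ →
            LinearMap.charpoly (ρ.ρ σ) =
              X ^ 2 - C (algebraMap O' O'' ((iota.comp chig.rangeRestrict) (CuspForm.heckeAlgebra.T hℓ hℓM hℓS))) * X
                + C ((ℓ : O'')))
      → ρ.residual.IsAbsolutelyIrreducible ∧ ρ.residual.IsOdd),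
    ∃ (O'' : Type) (_ : CommRing O'') (_ : IsDomain O'') (_ : IsDiscreteValuationRing O'')
      (_ : IsAdicComplete (IsLocalRing.maximalIdeal O'') O'') (_ : Finite (IsLocalRing.ResidueField O''))
      (_ : CharZero O'') (_ : Algebra O' O'') (_ : Module.Finite O' O'') (_ : IsLocalHom (algebraMap O' O'')),
      Function.Injective (algebraMap O' O'') ∧
      ∃ ρ : GaloisRepAdic O'',
        (∀ (ℓ : ℕ) (hℓ : ℓ.Prime) (hℓM : ¬ ℓ ∣ M) (hℓS : ℓ ∉ (↑S : Set ℕ)),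
          ∀ A : ValuationSubring (AlgebraicClosure ℚ), A.LiesOverPrime ℓ →
            ∀ σ : AlgebraicClosure ℚ ≃ₐ[ℚ] AlgebraicClosure ℚ, A.IsFrobeniusAt σ ℓ →
              LinearMap.charpoly (ρ.ρ σ) =
                X ^ 2 - C (algebraMap O' O'' ((iota.comp chig.rangeRestrict) (CuspForm.heckeAlgebra.T hℓ hℓM hℓS))) * X
                  + C ((ℓ : O''))) ∧
        (∀ q : ℕ, q.Prime → q ≠ lam → M.factorization q = 2 → ¬ ρ.IsUnipotentOnInertiaAt q)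

section

variable {W : WeierstrassCurve ℤ} {N M : ℕ} [NeZero N] [NeZero M]
  {g : CuspForm (CongruenceSubgroup.Gamma0 M) 2}

/-- a complete discrete valuation ring receiving the eigenvalues -/
theorem exists_iota (hg : g.IsNormalizedEigenform) (S : Set ℕ) (lam : ℕ) [Fact lam.Prime] :
    ∃ (O' : Type) (_ : CommRing O') (_ : IsDomain O') (_ : IsDiscreteValuationRing O')
      (_ : IsAdicComplete (maximalIdeal O') O') (_ : Finite (ResidueField O')) (_ : CharZero O'),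
      (lam : O') ∈ maximalIdeal O' ∧ Nonempty ((eigenChar hg S).range →+* O') := by
  haveI : Module.Finite ℤ (CuspForm.heckeAlgebra M 2 S) := Fermat.Agent.S22.result M 2 S
  haveI : Module.Finite ℤ (eigenChar hg S).range :=
    Module.Finite.of_surjective (eigenChar hg S).rangeRestrict.toAddMonoidHom.toIntLinearMap
      (eigenChar hg S).rangeRestrict_surjective
  exact exists_padic (eigenChar hg S).range lam

/-- the values of the eigencharacter in `O''` -/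
theorem val_iff (hg : g.IsNormalizedEigenform) {S : Set ℕ} {O' O'' : Type} [CommRing O']
    [IsDomain O'] [CharZero O'] [CommRing O''] [Algebra O' O'']
    (hinj : Function.Injective (algebraMap O' O'')) (iota : (eigenChar hg S).range →+* O')
    {ℓ : ℕ} (hℓ : ℓ.Prime) (hℓM : ¬ ℓ ∣ M) (hℓS : ℓ ∉ S) (a : ℤ) :
    algebraMap O' O'' ((iota.comp (eigenChar hg S).rangeRestrict)
      (CuspForm.heckeAlgebra.T hℓ hℓM hℓS)) = (a : O'') ↔ qCoeff g ℓ = (a : ℂ) := by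
  have h1 : (((eigenChar hg S).rangeRestrict (CuspForm.heckeAlgebra.T hℓ hℓM hℓS) :
      (eigenChar hg S).range) : ℂ) = qCoeff g ℓ := eigenChar_T hg hℓ hℓM hℓS
  have hi := injective_of_range (eigenChar hg S) iota
  rw [← h1, RingHom.comp_apply]
  constructor
  · intro h
    rw [← map_intCast (algebraMap O' O'') a] at h
    have h2 := hinj h
    rw [← map_intCast iota a] at h2
    have h3 := hi h2
    rw [h3]
    simp
  · intro h
    have h3 : (eigenChar hg S).rangeRestrict (CuspForm.heckeAlgebra.T hℓ hℓM hℓS) =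
        ((a : ℤ) : (eigenChar hg S).range) := Subtype.ext (by rw [h]; simp)
    rw [h3, map_intCast, map_intCast]

/-- an attached representation and its comparison with `W` -/
theorem coeff_good (hΔ : W.Δ ≠ 0) (hbad : ∀ ℓ : ℕ, ℓ.Prime → (ℓ : ℤ) ∣ W.Δ → ℓ ∣ N)
    (hMN : M ∣ N) (hg : g.IsNewform)
    (hgW : ∀ l : ℕ, l.Prime → ¬ l ∣ N → qCoeff g l = ((W.apOfModel l : ℤ) : ℂ))
    {lam : ℕ} [hlam : Fact lam.Prime] (hl2 : lam ≠ 2) :
    (∀ q : ℕ, q.Prime → q ≠ lam → ¬ (q : ℤ) ∣ W.Δ → ¬ q ∣ M →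
      qCoeff g q = ((W.apOfModel q : ℤ) : ℂ)) ∧
    (∀ q : ℕ, q.Prime → q ≠ lam → ¬ (q : ℤ) ∣ W.Δ → q ∣ M → ¬ q ^ 2 ∣ M → False) := by
  classical
  have hN0 : N ≠ 0 := NeZero.ne N
  have hM0 : M ≠ 0 := NeZero.ne M
  let S : Finset ℕ := insert lam M.primeFactors
  have hlamS : lam ∈ S := Finset.mem_insert_self _ _
  have hMS : ∀ q : ℕ, q.Prime → q ∣ M → q ∈ S := fun q hq hqM =>
    Finset.mem_insert_of_mem (Nat.mem_primeFactors.2 ⟨hq, hqM, hM0⟩)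
  obtain ⟨O', i1, i2, i3, i4, i5, i6, hO', ⟨iota⟩⟩ := exists_iota hg.1 (↑S : Set ℕ) lam
  obtain ⟨O'', j1, j2, j3, j4, j5, j6, j7, j8, j9, hinj, ρ, hρ, hρq⟩ :=
    Fermat.Agent.S35.result hg lam S O' hO' (eigenChar hg.1 (↑S : Set ℕ))
      (fun ℓ hℓ hℓM hℓS => eigenChar_T hg.1 hℓ hℓM hℓS) iota hlamS hMS
  have hlamO'' : (lam : O'') ∈ maximalIdeal O'' := by
    rw [← map_natCast (algebraMap O' O''), IsLocalRing.mem_maximalIdeal]
    rw [IsLocalRing.mem_maximalIdeal] at hO'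
    exact fun h => hO' ((isUnit_map_iff (algebraMap O' O'') (lam : O')).mp h)
  let S₁ : Set ℕ := {l | l ∣ N} ∪ {lam}
  have hS₁ : S₁.Finite := Set.Finite.union
    ((Finset.finite_toSet (Nat.divisors N)).subset fun r hr =>
      Finset.mem_coe.2 (Nat.mem_divisors.2 ⟨hr, hN0⟩)) (Set.finite_singleton lam)
  have hnot : ∀ ℓ : ℕ, ℓ.Prime → ℓ ∉ S₁ → ¬ ℓ ∣ M ∧ ℓ ∉ (↑S : Set ℕ) ∧ ¬ ℓ ∣ N := by
    intro ℓ hℓ h
    have h1 : ¬ ℓ ∣ N := fun hd => h (Or.inl hd)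
    have h2 : ℓ ≠ lam := fun he => h (Or.inr he)
    refine ⟨fun hd => h1 (hd.trans hMN), fun hmem => ?_, h1⟩
    rw [Finset.mem_coe, Finset.mem_insert, Nat.mem_primeFactors] at hmem
    rcases hmem with h3 | h3
    · exact h2 h3
    · exact h1 (h3.2.1.trans hMN)
  have hρW : ∀ ℓ : ℕ, ℓ.Prime → ℓ ∉ S₁ → ∀ P : ValuationSubring (AlgebraicClosure ℚ),
      P.LiesOverPrime ℓ → ∀ σ : GQ, P.IsFrobeniusAt σ ℓ →
        LinearMap.charpoly (ρ.ρ σ) = X ^ 2 - C ((W.apOfModel ℓ : ℤ) : O'') * X + C ((ℓ : O'')) := by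
    intro ℓ hℓ hℓS P hP σ hσ
    obtain ⟨h1, h2, h3⟩ := hnot ℓ hℓ hℓS
    rw [hρ ℓ hℓ h1 h2 P hP σ hσ, (val_iff hg.1 hinj iota hℓ h1 h2 (W.apOfModel ℓ)).2 (hgW ℓ hℓ h3)]
  obtain ⟨t, D, hch, hdet, -, -, htf⟩ := compare hΔ hl2 hlamO'' hS₁ (Or.inr rfl)
    (fun ℓ hℓ hd => Or.inl (hbad ℓ hℓ hd)) ρ hρW
  -- comparison of coefficients
  have hcoeff : ∀ x y z w : O'', (X ^ 2 - C x * X + C y : O''[X]) = X ^ 2 - C z * X + C w →
      x = z := by
    intro x y z w h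
    have h1 := congrArg (fun q : O''[X] => q.coeff 1) h
    simp [coeff_C] at h1
    exact h1
  constructor
  · intro q hq hqlam hd hqM
    have hqS : q ∉ (↑S : Set ℕ) := by
      intro hmem
      rw [Finset.mem_coe, Finset.mem_insert, Nat.mem_primeFactors] at hmem
      rcases hmem with h3 | h3
      · exact hqlam h3
      · exact hqM h3.2.1
    obtain ⟨A, hA⟩ := Places.exists_liesOverPrime (AlgebraicClosure ℚ) hq
    obtain ⟨σ, hσ⟩ := Places.exists_isFrobeniusAt A hq hA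
    have h1 := hρ q hq hqM hqS A hA σ hσ
    rw [hch σ] at h1
    have h2 := hcoeff _ _ _ _ h1
    rw [htf q hq hqlam hd A hA σ hσ] at h2
    exact (val_iff hg.1 hinj iota hq hqM hqS (W.apOfModel q)).1 h2.symm
  · intro q hq hqlam hd hqM hqM2
    haveI : Fact q.Prime := ⟨hq⟩
    obtain ⟨A, hA⟩ := Places.exists_liesOverPrime (AlgebraicClosure ℚ) hq
    obtain ⟨σ, hσ⟩ := Places.exists_isFrobeniusAt A hq hA
    have hsq : (W.apOfModel q) ^ 2 = ((q : ℤ) + 1) ^ 2 := by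
      rcases hρq q hq hqlam hqM hqM2 A hA σ hσ with h1 | h1
      · rw [hch σ] at h1
        have h2 := hcoeff _ _ _ _ h1
        rw [htf q hq hqlam hd A hA σ hσ] at h2
        have h3 : W.apOfModel q = (q : ℤ) + 1 := by exact_mod_cast h2
        rw [h3]
      · rw [hch σ] at h1
        have h1' : (X ^ 2 - C (t σ) * X + C (D σ) : O''[X]) =
            X ^ 2 - C (-((q : O'') + 1)) * X + C ((q : O'')) := by
          rw [h1, C_neg]; ring
        have h2 := hcoeff _ _ _ _ h1'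
        rw [htf q hq hqlam hd A hA σ hσ] at h2
        have h3 : W.apOfModel q = -((q : ℤ) + 1) := by exact_mod_cast h2
        rw [h3]; ring
    have hH := EllFrob.hasse_bound_model W hd
    rw [hsq] at hH
    have h2 : (2 : ℤ) ≤ q := by exact_mod_cast hq.two_le
    nlinarith

/-- **no prime `q ≠ p` divides the level exactly twice** -/
theorem no_square (h36 : S36Statement) (hΔ : W.Δ ≠ 0) (hss : W.IsSemistableModel)
    (hbad : ∀ ℓ : ℕ, ℓ.Prime → (ℓ : ℤ) ∣ W.Δ → ℓ ∣ N)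
    (hMN : M ∣ N) (hg : g.IsNewform)
    (hgW : ∀ l : ℕ, l.Prime → ¬ l ∣ N → qCoeff g l = ((W.apOfModel l : ℤ) : ℂ))
    {p : ℕ} [hp : Fact p.Prime] (hp2 : p ≠ 2) (hirr : W.ModRepIsIrreducible p) {q : ℕ}
    (hq : q.Prime) (hqp : q ≠ p) (hfac : M.factorization q = 2) : False := by
  classical
  have hN0 : N ≠ 0 := NeZero.ne N
  have hM0 : M ≠ 0 := NeZero.ne M
  let S : Finset ℕ := insert p M.primeFactors
  have hpS : p ∈ S := Finset.mem_insert_self _ _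
  have hMS : ∀ q : ℕ, q.Prime → q ∣ M → q ∈ S := fun q hq hqM =>
    Finset.mem_insert_of_mem (Nat.mem_primeFactors.2 ⟨hq, hqM, hM0⟩)
  obtain ⟨O', i1, i2, i3, i4, i5, i6, hO', ⟨iota⟩⟩ := exists_iota hg.1 (↑S : Set ℕ) p
  let S₁ : Set ℕ := {l | l ∣ N} ∪ {p}
  have hS₁ : S₁.Finite := Set.Finite.union
    ((Finset.finite_toSet (Nat.divisors N)).subset fun r hr =>
      Finset.mem_coe.2 (Nat.mem_divisors.2 ⟨hr, hN0⟩)) (Set.finite_singleton p)
  have hnot : ∀ ℓ : ℕ, ℓ.Prime → ℓ ∉ S₁ → ¬ ℓ ∣ M ∧ ℓ ∉ (↑S : Set ℕ) ∧ ¬ ℓ ∣ N ∧ ℓ ≠ p := by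
    intro ℓ hℓ h
    have h1 : ¬ ℓ ∣ N := fun hd => h (Or.inl hd)
    have h2 : ℓ ≠ p := fun he => h (Or.inr he)
    refine ⟨fun hd => h1 (hd.trans hMN), fun hmem => ?_, h1, h2⟩
    rw [Finset.mem_coe, Finset.mem_insert, Nat.mem_primeFactors] at hmem
    rcases hmem with h3 | h3
    · exact h2 h3
    · exact h1 (h3.2.1.trans hMN)
  have hpp : ∀ (O'' : Type) [CommRing O''] [IsLocalRing O''] [Algebra O' O'']
      [IsLocalHom (algebraMap O' O'')], (p : O'') ∈ maximalIdeal O'' := by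
    intro O'' _ _ _ _
    rw [← map_natCast (algebraMap O' O''), IsLocalRing.mem_maximalIdeal]
    rw [IsLocalRing.mem_maximalIdeal] at hO'
    exact fun h => hO' ((isUnit_map_iff (algebraMap O' O'') (p : O')).mp h)
  obtain ⟨O'', j1, j2, j3, j4, j5, j6, j7, j8, j9, hinj, ρ, hρ, hρq⟩ :=
    h36 hg p S O' hO' hp2 (eigenChar hg.1 (↑S : Set ℕ))
      (fun ℓ hℓ hℓM hℓS => eigenChar_T hg.1 hℓ hℓM hℓS) iota hpS hMS
      (by
        intro O'' _ _ _ _ _ _ _ _ _ hinj ρ hρ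
        have hρW : ∀ ℓ : ℕ, ℓ.Prime → ℓ ∉ S₁ → ∀ P : ValuationSubring (AlgebraicClosure ℚ),
            P.LiesOverPrime ℓ → ∀ σ : GQ, P.IsFrobeniusAt σ ℓ →
              LinearMap.charpoly (ρ.ρ σ) =
                X ^ 2 - C ((W.apOfModel ℓ : ℤ) : O'') * X + C ((ℓ : O'')) := by
          intro ℓ hℓ hℓS P hP σ hσ
          obtain ⟨h1, h2, h3, h4⟩ := hnot ℓ hℓ hℓS
          rw [hρ ℓ hℓ h4 h1 h2 P hP σ hσ,
            (val_iff hg.1 hinj iota hℓ h1 h2 (W.apOfModel ℓ)).2 (hgW ℓ hℓ h3)]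
        obtain ⟨t, D, hch, hdet, hD, -, -⟩ := compare hΔ hp2 (hpp O'') hS₁ (Or.inr rfl)
          (fun ℓ hℓ hd => Or.inl (hbad ℓ hℓ hd)) ρ hρW
        exact ⟨absIrr hΔ hp2 hirr (hpp O'') ρ hS₁ hρW, isOdd_of_D hp2 (hpp O'') ρ hD hdet⟩)
  have hρW : ∀ ℓ : ℕ, ℓ.Prime → ℓ ∉ S₁ → ∀ P : ValuationSubring (AlgebraicClosure ℚ),
      P.LiesOverPrime ℓ → ∀ σ : GQ, P.IsFrobeniusAt σ ℓ →
        LinearMap.charpoly (ρ.ρ σ) = X ^ 2 - C ((W.apOfModel ℓ : ℤ) : O'') * X + C ((ℓ : O'')) := by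
    intro ℓ hℓ hℓS P hP σ hσ
    obtain ⟨h1, h2, h3, h4⟩ := hnot ℓ hℓ hℓS
    rw [hρ ℓ hℓ h1 h2 P hP σ hσ,
      (val_iff hg.1 hinj iota hℓ h1 h2 (W.apOfModel ℓ)).2 (hgW ℓ hℓ h3)]
  obtain ⟨t, D, hch, hdet, hD, hin, -⟩ := compare hΔ hp2 (hpp O'') hS₁ (Or.inr rfl)
    (fun ℓ hℓ hd => Or.inl (hbad ℓ hℓ hd)) ρ hρW
  apply hρq q hq hqp hfac
  intro A hA σ hσ
  obtain ⟨h1, h2⟩ := hin q hq hqp (hss q hq) A hA σ hσ
  rw [hch σ, h1, h2]
  have e2 : (C (2 : O'') : O''[X]) = 2 := by rw [map_ofNat]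
  rw [e2, C_1]
  ring

end

/-- **S58 from S36.** -/
theorem s58_of_s36 (h36 : S36Statement)
    (W : WeierstrassCurve ℤ) (hss : W.IsSemistableModel) (N : ℕ)
    (p : ℕ) [hp : Fact p.Prime] (hp2 : p ≠ 2) (hirr : W.ModRepIsIrreducible p)
    (hp2N : ¬ p ^ 2 ∣ N)
    (hN : W.IsModularModelOfLevel N) (hbad : ∀ ℓ : ℕ, ℓ.Prime → (ℓ : ℤ) ∣ W.Δ → ℓ ∣ N)
    (hN3 : ∀ q : ℕ, q.Prime → ¬ q ^ 3 ∣ N) :
    W.IsModularModelOfLevel W.conductorLevel := by
  have hN0 : N ≠ 0 := by rintro rfl; exact hp2N (dvd_zero _)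
  haveI : NeZero N := ⟨hN0⟩
  have hΔ : W.Δ ≠ 0 := by
    intro h0
    obtain ⟨ℓ, hℓN, hℓ⟩ := Nat.exists_infinite_primes (N + 1)
    have := Nat.le_of_dvd (Nat.pos_of_ne_zero hN0) (hbad ℓ hℓ (by rw [h0]; exact dvd_zero _))
    omega
  obtain ⟨f, hf, hfW⟩ := hN
  obtain ⟨M, hMN, g, hg, hgf⟩ := exists_newform N f hf
  have hM0 : M ≠ 0 := by rintro rfl; exact hN0 (Nat.eq_zero_of_zero_dvd hMN)
  haveI : NeZero M := ⟨hM0⟩
  have hgW : ∀ l : ℕ, l.Prime → ¬ l ∣ N → qCoeff g l = ((W.apOfModel l : ℤ) : ℂ) := by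
    intro l hl hlN
    rw [hgf l hl hlN, hfW l hl (fun hd => hlN (hbad l hl hd)) hlN]
  -- the auxiliary prime
  have haux : ∀ q : ℕ, ∃ lam : ℕ, lam.Prime ∧ lam ≠ 2 ∧ q ≠ lam := by
    intro q
    by_cases h3 : q = 3
    · exact ⟨5, Nat.prime_five, by norm_num, by rw [h3]; norm_num⟩
    · exact ⟨3, Nat.prime_three, by norm_num, h3⟩
  have hF : ∀ q : ℕ, q.Prime → ¬ (q : ℤ) ∣ W.Δ → ¬ q ∣ M →
      qCoeff g q = ((W.apOfModel q : ℤ) : ℂ) := by
    intro q hq hd hqM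
    obtain ⟨lam, hlam, hl2, hne⟩ := haux q
    haveI : Fact lam.Prime := ⟨hlam⟩
    exact (coeff_good hΔ hbad hMN hg hgW hl2).1 q hq hne hd hqM
  have hsqM : ∀ q : ℕ, q.Prime → ¬ q ^ 2 ∣ M := by
    intro q hq h2
    by_cases hqp : q = p
    · subst hqp
      exact hp2N (h2.trans hMN)
    · refine no_square h36 hΔ hss hbad hMN hg hgW hp2 hirr hq hqp ?_
      have h3 : ¬ q ^ 3 ∣ M := fun h => hN3 q hq (h.trans hMN)
      have h4 := (hq.pow_dvd_iff_le_factorization hM0).1 h2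
      have h5 : ¬ 3 ≤ M.factorization q := fun h => h3 ((hq.pow_dvd_iff_le_factorization hM0).2 h)
      omega
  have hbadM : ∀ q : ℕ, q.Prime → q ∣ M → (q : ℤ) ∣ W.Δ := by
    intro q hq hqM
    by_contra hd
    obtain ⟨lam, hlam, hl2, hne⟩ := haux q
    haveI : Fact lam.Prime := ⟨hlam⟩
    exact (coeff_good hΔ hbad hMN hg hgW hl2).2 q hq hne hd hqM (hsqM q hq)
  have hMsq : Squarefree M := Nat.squarefree_iff_prime_squarefree.2 fun q hq h =>
    hsqM q hq (by rw [sq]; exact h)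
  have hMc : M ∣ W.conductorLevel := by
    rw [← Nat.prod_primeFactors_of_squarefree hMsq]
    refine Finset.prod_primes_dvd _ (fun q hq => (Nat.prime_of_mem_primeFactors hq).prime)
      fun q hq => ?_
    exact (W.prime_dvd_conductorLevel_iff hΔ (Nat.prime_of_mem_primeFactors hq)).2
      (hbadM q (Nat.prime_of_mem_primeFactors hq) (Nat.dvd_of_mem_primeFactors hq))
  obtain ⟨h, hh, hhg⟩ := exists_at_level hMc hg.1
  refine ⟨h, hh, fun q hq hd hqc => ?_⟩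
  rw [hhg q hq hqc]
  exact hF q hq hd (fun hqM => hqc (hqM.trans hMc))

end

end Fermat.Agent.CL
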