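import Fermat.Agent.CL.Node

/-!
# Inertia is unipotent on torsion points of a semistable curve
-/

set_option autoImplicit false
set_option linter.unusedSectionVars false

namespace Fermat.Agent.CL

open WeierstrassCurve WeierstrassCurve.Affine WeierstrassCurve.Affine.Point
open Fermat.Agent.EC

variable {F K : Type*} [Field F] [Field K] [Algebra F K] {Γ₀ : Type*}
  [LinearOrderedCommGroupWithZero Γ₀]
variable {W : Affine F} {v : Valuation K Γ₀} {τ : K ≃ₐ[F] K} {r t : K}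

/-- difference of two quotients -/
lemma div_sub_div_val {a b c d : K} {ε : Γ₀} (hb : b ≠ 0) (hd : d ≠ 0) (hbd : v b = v d)
    (hab : v a ≤ v b) (h1 : v (c - a) ≤ ε) (h2 : v (d - b) ≤ ε) :
    v (c / d - a / b) * v b ≤ ε := by
  have e : c / d - a / b = ((c - a) * b - a * (d - b)) / (d * b) := by
    field_simp
    ring
  have hb0 : 0 < v b := zero_lt_iff.mpr ((Valuation.ne_zero_iff _).mpr hb)
  rw [e, map_div₀, map_mul, ← hbd, div_mul_eq_mul_div, mul_div_mul_right _ _ hb0.ne']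
  refine div_le_of_le_mul₀ zero_le zero_le ?_
  refine (v.map_sub _ _).trans (max_le ?_ ?_)
  · rw [map_mul]; gcongr
  · rw [map_mul, mul_comm]; gcongr

section

variable [DecidableEq K]

lemma sub_mem_E1' (hτ : IsInert v τ) (M : IntT v (W⁄K) r t) (hm : v (tA4 (W⁄K) r t) < 1)
    (hr : v (τ r - r) < 1) (ht : v (τ t - t) < 1) {P : (W⁄K).Point}
    (hP : P ∈ M.E0 hm) : τ • P - P ∈ M.E1 := by
  rcases P with _ | ⟨x, y, h⟩
  · change τ • (0 : (W⁄K).Point) - 0 ∈ _
    rw [smul_zero, sub_zero]; exact zero_mem _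
  rw [M.mem_E0_some] at hP
  have hxr : x ≠ r := M.ne_of_one_le hP
  have hτx : v (τ x - r) = v (x - r) := by
    have e : τ x - r = τ (x - r) + (τ r - r) := by rw [map_sub τ]; ring
    rw [e, Valuation.map_add_eq_of_lt_left, hτ.map_eq]
    rw [hτ.map_eq]
    exact hr.trans_le hP
  rcases hP.lt_or_eq with hlt | heq
  · refine sub_mem ?_ ((M.mem_E1_some h).2 hlt)
    rw [smul_some, M.mem_E1_some, hτx]
    exact hlt
  have hs := M.sq_sl_le h.1 hP
  rw [← heq] at hs
  have hs1 : v (sl r t x y) ≤ 1 := by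
    by_contra hgt
    push Not at hgt
    exact absurd hs (not_le.mpr (one_lt_pow₀ hgt two_ne_zero))
  have hxr0 : x - r ≠ 0 := sub_ne_zero.mpr hxr
  have hyt : v (y - t) ≤ 1 := by
    have e : y - t = sl r t x y * (x - r) := by rw [sl, div_mul_cancel₀ _ hxr0]
    rw [e, map_mul, ← heq, mul_one]
    exact hs1
  have hτxr : τ x ≠ r := by
    apply M.ne_of_one_le
    rw [hτx]; exact hP
  rw [sub_eq_add_neg, smul_some, Point.neg_some]
  have hτn := nonsingular_map τ h
  have hn := (nonsingular_neg (W' := W⁄K) x y).mpr h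
  by_cases hxy : τ x = x ∧ τ y = (W⁄K).negY x ((W⁄K).negY x y)
  · rw [Point.add_of_Y_eq hxy.1 hxy.2]
    exact zero_mem _
  rw [Point.add_some hxy, M.mem_E1_some]
  have hA := M.toTModel.sumA hτn.1 hn.1 hτxr hxr hxy
  have hw : sl r t (τ x) (τ y) +
      sl r t x ((W⁄K).negY x y) + (W⁄K).a₁ =
      sl r t (τ x) (τ y) - sl r t x y := by
    have := M.toTModel.sl_neg (y := y) hxr
    linear_combination this
  have hw1 : v (sl r t (τ x) (τ y) - sl r t x y) < 1 := by
    have h1 : v ((τ y - t) - (y - t)) < 1 := by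
      have e : (τ y - t) - (y - t) = (τ (y - t) - (y - t)) + (τ t - t) := by
        rw [map_sub τ]; ring
      rw [e]
      exact v.map_add_lt (hτ.sub_lt _ hyt) ht
    have h2 : v ((τ x - r) - (x - r)) < 1 := by
      have e : (τ x - r) - (x - r) = (τ (x - r) - (x - r)) + (τ r - r) := by
        rw [map_sub τ]; ring
      rw [e]
      exact v.map_add_lt (hτ.sub_lt _ heq.symm.le) hr
    have h3 := div_sub_div_val (v := v) (a := y - t) (b := x - r) (c := τ y - t) (d := τ x - r)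
      (ε := max (v ((τ y - t) - (y - t))) (v ((τ x - r) - (x - r)))) hxr0
      (sub_ne_zero.mpr hτxr) hτx.symm (by rw [← heq]; exact hyt) (le_max_left _ _)
      (le_max_right _ _)
    rw [← heq, mul_one] at h3
    exact h3.trans_lt (max_lt h1 h2)
  rw [← hw] at hw1
  have hAv := congrArg v hA
  have hD : v ((τ x - r) * (x - r) - tA4 (W⁄K) r t) = 1 := by
    rw [Valuation.map_sub_eq_of_lt_left, map_mul, hτx, ← heq, one_mul]
    rw [map_mul, hτx, ← heq, one_mul]
    exact hm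
  rw [map_mul, map_mul, map_mul, map_pow, map_pow, hτx, ← heq, one_mul, mul_one, hD, one_pow] at hAv
  by_contra hle
  push Not at hle
  have h1 : v (sl r t (τ x) (τ y) +
      sl r t x ((W⁄K).negY x y) + (W⁄K).a₁) ^ 2 < 1 :=
    pow_lt_one₀ zero_le hw1 two_ne_zero
  have h2 := lt_of_le_of_lt (mul_le_of_le_one_left' hle) h1
  rw [hAv] at h2
  exact lt_irrefl _ h2

omit [DecidableEq K] in
/-- Inertia preserves the branches. -/
lemma inD' (hτ : IsInert v τ) {tp tm : K}
    (M : MultT v (W⁄K) r t tp tm) (hr : v (τ r - r) ≤ v (tA4 (W⁄K) r t))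
    (ht : v (τ t - t) ≤ v (tA4 (W⁄K) r t)) {x y : K} {h : (W⁄K).Nonsingular x y}
    (D : InD v (W⁄K) r t tp (Point.some x y h)) :
    v (τ x - r) = v (x - r) ∧
    InD v (W⁄K) r t tp (Point.some (τ x) (τ y) (nonsingular_map τ h)) := by
  obtain ⟨x', y', h', he, a1, a2, a3⟩ := D
  rw [Point.some.injEq] at he
  obtain ⟨rfl, rfl⟩ := he
  have hτx : v (τ x - r) = v (x - r) := by
    have e : τ x - r = τ (x - r) + (τ r - r) := by rw [map_sub τ]; ring
    rw [e, Valuation.map_add_eq_of_lt_left, hτ.map_eq]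
    rw [hτ.map_eq]
    exact hr.trans_lt a1
  have hxr : x ≠ r := by
    rintro rfl
    rw [sub_self, _root_.map_zero] at a1
    exact absurd a1 (not_lt.mpr zero_le)
  have hτxr : τ x ≠ r := by
    intro h0
    rw [h0, sub_self, _root_.map_zero] at hτx
    rw [← hτx] at a1
    exact absurd a1 (not_lt.mpr zero_le)
  have hxr0 : x - r ≠ 0 := sub_ne_zero.mpr hxr
  have hs1 : v (sl r t x y) ≤ 1 := by
    have e2 : sl r t x y = (sl r t x y - tp) + tp := by ring
    rw [e2]
    exact v.map_add_le a3.le M.vtp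
  have hyt : v (y - t) ≤ v (x - r) := by
    have e : y - t = sl r t x y * (x - r) := by rw [sl, div_mul_cancel₀ _ hxr0]
    rw [e, map_mul]
    exact mul_le_of_le_one_left' hs1
  refine ⟨hτx, _, _, _, rfl, ?_, ?_, ?_⟩
  · rw [hτx]; exact a1
  · rw [hτx]; exact a2
  · have e : sl r t (τ x) (τ y) - tp =
        (sl r t (τ x) (τ y) - τ (sl r t x y)) + ((τ (sl r t x y) - sl r t x y) +
        (sl r t x y - tp)) := by ring
    rw [e]
    refine v.map_add_lt ?_ (v.map_add_lt (hτ.sub_lt _ hs1) a3)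
    have hu0 : τ (x - r) ≠ 0 := by rwa [Ne, EmbeddingLike.map_eq_zero_iff]
    have h3 := div_sub_div_val (v := v) (a := τ (y - t)) (b := τ (x - r)) (c := τ y - t)
      (d := τ x - r) (ε := v (tA4 (W⁄K) r t)) hu0
      (sub_ne_zero.mpr hτxr) (by rw [hτ.map_eq, hτx]) (by rw [hτ.map_eq, hτ.map_eq]; exact hyt)
      (by
        have e : τ y - t - τ (y - t) = τ t - t := by rw [map_sub τ]; ring
        rw [e]; exact ht)
      (by
        have e : τ x - r - τ (x - r) = τ r - r := by rw [map_sub τ]; ring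
        rw [e]; exact hr)
    have e4 : sl r t (τ x) (τ y) - τ (sl r t x y) = (τ y - t) / (τ x - r) -
        τ (y - t) / τ (x - r) := by
      rw [sl, sl, map_div₀]
    rw [← e4, hτ.map_eq] at h3
    by_contra hge
    push Not at hge
    have h5 : v (x - r) ≤ v (tA4 (W⁄K) r t) := (le_mul_of_one_le_left' hge).trans h3
    exact absurd a1 (not_lt.mpr h5)

/-- For every torsion point of odd order, `τ P - P` has nonsingular reduction. -/
lemma sub_mem_E0' (hτ : IsInert v τ) {tp tm : K}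
    (M : MultT v (W⁄K) r t tp tm) (hr : v (τ r - r) ≤ v (tA4 (W⁄K) r t))
    (ht : v (τ t - t) ≤ v (tA4 (W⁄K) r t)) {m : ℕ} (hodd : Odd m)
    {P : (W⁄K).Point} (hP : m • P = 0) :
    τ • P - P ∈ M.toIntT.E0 M.hm := by
  by_cases hP0 : P ∈ M.toIntT.E0 M.hm
  · exact M.toIntT.E1_le_E0 M.hm (sub_mem_E1' hτ M.toIntT M.hm (hr.trans_lt M.hm)
      (ht.trans_lt M.hm) hP0)
  rcases P with _ | ⟨x, y, h⟩
  · exact absurd (zero_mem _) hP0
  have hD : InD v (W⁄K) r t tp (Point.some x y h) ∨ InD v (W⁄K) r t tm (Point.some x y h) := by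
    apply M.inD_or
    · by_contra hle
      push Not at hle
      have h2 := M.two_nsmul_mem_E0 h hle
      exact hP0 (mem_of_coprime_nsmul_mem _ hP hodd.coprime_two_left h2)
    · by_contra hle
      push Not at hle
      apply hP0
      rw [M.toIntT.mem_E0_some]
      exact hle
  rcases hD with h0 | h0
  · obtain ⟨hτx, D1⟩ := inD' hτ M hr ht h0
    have D2 := M.neg_inD h0
    rw [smul_some, sub_eq_add_neg, Point.neg_some]
    rw [Point.neg_some] at D2
    exact M.opp_branch D1 D2 hτx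
  · obtain ⟨hτx, D1⟩ := inD' hτ M.swap hr ht h0
    have D2 := M.swap.neg_inD h0
    rw [smul_some, sub_eq_add_neg, Point.neg_some]
    rw [Point.neg_some] at D2
    exact M.swap.opp_branch D1 D2 hτx

lemma eq_zero_of_mem_E1' (M : IntT v (W⁄K) r t)
    (hI : IsInt v (W⁄K)) {p : ℕ} (hp : Odd p) (hvp : v (p : K) = 1) {P : (W⁄K).Point}
    (hP : p • P = 0) (hP1 : P ∈ M.E1) : P = 0 := by
  rcases P with _ | ⟨x, y, h⟩
  · rfl
  · exfalso
    have h1 := hI.torsion_integral hp hvp h hP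
    rw [M.mem_E1_some' h] at hP1
    exact absurd h1 (not_le.mpr hP1)

/-- the ramification of the two-torsion point is bounded -/
lemma IsMult.near [IsAlgClosed K] [CharZero K] (h : IsMult v (W⁄K)) (hτ : IsInert v τ)
    (M : IntT v (W⁄K) r t)
    (hB : v ((W⁄K).a₁ ^ 2 + 4 * tA2 (W⁄K) r) = 1) (hr : v (r - nodeX (W⁄K)) < 1) :
    v (τ r - r) ≤ v (tA4 (W⁄K) r t) ∧ v (τ t - t) ≤ v (tA4 (W⁄K) r t) := by
  have hn := h.nat
  -- `Ψ` vanishes at `r` and `τ r`
  have hτW : τ (nodeX (W⁄K)) = nodeX (W⁄K) := by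
    have e : nodeX (W⁄K) = algebraMap F K (nodeX W) := by
      change nodeX (WeierstrassCurve.map W (algebraMap F K)) = _
      simp only [nodeX, map_div₀, map_sub, map_mul, map_ofNat, WeierstrassCurve.map_b₂,
        WeierstrassCurve.map_b₄, WeierstrassCurve.map_b₆, WeierstrassCurve.map_c₄]
    rw [e, AlgEquiv.commutes]
  have ha1 : τ (W⁄K).a₁ = (W⁄K).a₁ := AlgEquiv.commutes _ _
  have ha2 : τ (W⁄K).a₂ = (W⁄K).a₂ := AlgEquiv.commutes _ _
  have ha3 : τ (W⁄K).a₃ = (W⁄K).a₃ := AlgEquiv.commutes _ _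
  have ha4 : τ (W⁄K).a₄ = (W⁄K).a₄ := AlgEquiv.commutes _ _
  have ha6 : τ (W⁄K).a₆ = (W⁄K).a₆ := AlgEquiv.commutes _ _
  set z : K := τ r - r with hz
  have hvz : v z < 1 := by
    have e : z = τ (r - nodeX (W⁄K)) - (r - nodeX (W⁄K)) := by
      rw [map_sub τ, hτW, hz]; ring
    rw [e]
    exact v.map_sub_lt (by rw [hτ.map_eq]; exact hr) hr
  have hE := M.eqn
  rw [equation_iff] at hE
  have h2 := M.two
  have hE' : τ t ^ 2 + (W⁄K).a₁ * τ r * τ t + (W⁄K).a₃ * τ t = τ r ^ 3 + (W⁄K).a₂ * τ r ^ 2 +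
      (W⁄K).a₄ * τ r + (W⁄K).a₆ := by
    have := congrArg τ hE
    simp only [map_add, map_mul, map_pow, ha1, ha2, ha3, ha4, ha6] at this
    exact this
  have h2' : 2 * τ t + (W⁄K).a₁ * τ r + (W⁄K).a₃ = 0 := by
    have := congrArg τ h2
    simp only [map_add, map_mul, ha1, ha3, _root_.map_zero, map_ofNat] at this
    exact this
  have e1 : z * (4 * z ^ 2 + ((W⁄K).a₁ ^ 2 + 4 * tA2 (W⁄K) r) * z + 4 * tA4 (W⁄K) r t) = 0 := by
    have hτr : τ r = r + z := by rw [hz]; ring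
    rw [hτr] at hE' h2'
    simp only [tA2, tA4]
    linear_combination (-4) * hE' + 4 * hE + (2 * τ t + (W⁄K).a₁ * (r + z) + (W⁄K).a₃) * h2' -
      (2 * t + (W⁄K).a₁ * r + (W⁄K).a₃) * h2 - 2 * z * (W⁄K).a₁ * h2
  have h4 : v (4 * tA4 (W⁄K) r t) ≤ v (tA4 (W⁄K) r t) := by
    have := h.val_mul_nat 4 (tA4 (W⁄K) r t)
    exact_mod_cast this
  have hz4 : v z = 0 ∨ v z = v (4 * tA4 (W⁄K) r t) := by
    rcases mul_eq_zero.mp e1 with h0 | h0
    · left; rw [h0, _root_.map_zero]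
    by_cases hz0 : z = 0
    · left; rw [hz0, _root_.map_zero]
    right
    have hvz0 : 0 < v z := zero_lt_iff.mpr ((Valuation.ne_zero_iff _).mpr hz0)
    have e2 : 4 * tA4 (W⁄K) r t = -(((W⁄K).a₁ ^ 2 + 4 * tA2 (W⁄K) r) * z + 4 * z ^ 2) := by
      linear_combination h0
    rw [e2, Valuation.map_neg, Valuation.map_add_eq_of_lt_left, map_mul, hB, one_mul]
    rw [map_mul _ _ z, hB, one_mul]
    refine lt_of_le_of_lt (b := v (z ^ 2)) ?_ ?_
    · have := h.val_mul_nat 4 (z ^ 2)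
      exact_mod_cast this
    · rw [map_pow, sq]
      exact mul_lt_of_lt_one_left hvz0 hvz
  have hvz4 : v z ≤ v (4 * tA4 (W⁄K) r t) := by
    rcases hz4 with h0 | h0
    · rw [h0]; exact zero_le
    · exact h0.le
  refine ⟨hvz4.trans h4, ?_⟩
  -- `2 (τ t - t) = - a₁ z`
  have e3 : 2 * (τ t - t) = -((W⁄K).a₁ * z) := by
    rw [hz]; linear_combination h2' - h2
  have h5 : v (2 : K) * v (τ t - t) ≤ v (2 : K) * (v (2 : K) * v (tA4 (W⁄K) r t)) := by
    rw [← map_mul, e3, Valuation.map_neg, map_mul]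
    refine (mul_le_of_le_one_left' h.int.a₁).trans (hvz4.trans ?_)
    rw [show (4 : K) = 2 * 2 by norm_num, map_mul, map_mul, mul_assoc]
  have h20 : 0 < v (2 : K) := zero_lt_iff.mpr ((Valuation.ne_zero_iff _).mpr two_ne_zero)
  refine (le_of_mul_le_mul_left h5 h20).trans (mul_le_of_le_one_left' (by exact_mod_cast hn 2))

/-- **Inertia is unipotent on the torsion of a curve with multiplicative reduction.** -/
theorem IsMult.unip [IsAlgClosed K] [CharZero K] (h : IsMult v (W⁄K)) (hτ : IsInert v τ)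
    {m : ℕ} (hodd : Odd m) (hvm : v (m : K) = 1) {P : (W⁄K).Point} (hP : m • P = 0) :
    τ • τ • P - 2 • τ • P + P = 0 := by
  obtain ⟨r, t, M, hm, hm0, hB, hr⟩ := h.exists_pt
  obtain ⟨hr', ht'⟩ := h.near hτ M hB hr
  obtain ⟨tp, tm, MM⟩ := exists_MultT M hm hm0 hB
  have h1 := sub_mem_E0' hτ MM hr' ht' hodd hP
  have h2 := sub_mem_E1' hτ MM.toIntT MM.hm (hr'.trans_lt hm) (ht'.trans_lt hm) h1
  have h3 := eq_zero_of_mem_E1' MM.toIntT h.int hodd hvm (nsmul_smul_sub (nsmul_smul_sub hP τ) τ) h2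
  rw [← h3, smul_sub, two_nsmul]
  abel

end

end Fermat.Agent.CL
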