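import Fermat.Agent.CL.Inert
import Fermat.Agent.EC.InertiaSub
import Fermat.Agent.PRem.BLR
import Fermat.Agent.GalRep.LocalFrob
import Fermat.Agent.GalRep.LocalCond

/-!
# The `p`-adic pseudo-representation of an elliptic curve over `ℚ`
-/

set_option autoImplicit false
set_option linter.unusedSectionVars false
set_option linter.style.haveILetI false

namespace Fermat.Agent.CL

open WeierstrassCurve WeierstrassCurve.Affine WeierstrassCurve.Affine.Point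
open Fermat.Agent.EC Fermat.Agent.GalRep Fermat.Agent.PRem

noncomputable section

local notation "Qb" => AlgebraicClosure ℚ

/-- the rational curve of an integral model -/
abbrev EQ (W : WeierstrassCurve ℤ) : WeierstrassCurve ℚ := W.map (Int.castRingHom ℚ)

theorem isIntegralModelOf_EQ (W : WeierstrassCurve ℤ) : W.IsIntegralModelOf (EQ W) :=
  ⟨1, one_smul _ _⟩

theorem isElliptic_EQ {W : WeierstrassCurve ℤ} (hΔ : W.Δ ≠ 0) : (EQ W).IsElliptic := by
  refine ⟨?_⟩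
  rw [WeierstrassCurve.map_Δ, isUnit_iff_ne_zero, eq_intCast]
  exact_mod_cast hΔ

theorem val_lt_of_liesOver {A : ValuationSubring Qb} {q : ℕ} (hA : A.LiesOverPrime q) :
    A.valuation (q : Qb) < 1 := hA

variable {W : WeierstrassCurve ℤ}

theorem EQK_eq (W : WeierstrassCurve ℤ) : ((EQ W)⁄Qb) = W.map (Int.castRingHom Qb) := by
  change (W.map (Int.castRingHom ℚ)).map (algebraMap ℚ Qb) = _
  rw [WeierstrassCurve.map_map]
  congr 1

theorem isInt_EQ (W : WeierstrassCurve ℤ) {Γ₀ : Type*} [LinearOrderedCommGroupWithZero Γ₀]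
    (v : Valuation Qb Γ₀) : IsInt v ((EQ W)⁄Qb) := by
  rw [EQK_eq]
  exact ⟨val_int_le v _, val_int_le v _, val_int_le v _, val_int_le v _, val_int_le v _⟩

theorem val_Δ (W : WeierstrassCurve ℤ) {Γ₀ : Type*} [LinearOrderedCommGroupWithZero Γ₀]
    (v : Valuation Qb Γ₀) : v ((EQ W)⁄Qb).Δ = v (W.Δ : Qb) := by
  rw [EQK_eq, WeierstrassCurve.map_Δ, eq_intCast]

/-- **inertia is unipotent** on the torsion of a semistable curve. -/
theorem unip_model (hΔ : W.Δ ≠ 0) {q : ℕ} (hq : q.Prime)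
    (hss : (q : ℤ) ∣ W.Δ → ¬ (q : ℤ) ∣ W.c₄) {A : ValuationSubring Qb}
    (hA : A.LiesOverPrime q) {σ : GQ} (hσ : σ ∈ A.inertiaSubgroupIn ℚ) {m : ℕ} (hodd : Odd m)
    (hqm : ¬ q ∣ m) {P : ((EQ W)⁄Qb).Point} (hP : m • P = 0) :
    σ • σ • P - 2 • σ • P + P = 0 := by
  have hv := val_lt_of_liesOver hA
  have hτ : IsInert A.valuation σ := isInert_of_mem A hσ
  have hvm : A.valuation ((m : ℕ) : Qb) = 1 := by
    have : ¬ (q : ℤ) ∣ (m : ℤ) := by rwa [Int.natCast_dvd_natCast]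
    exact_mod_cast val_int_eq_one_of_not_dvd A.valuation hq hv this
  by_cases hd : (q : ℤ) ∣ W.Δ
  · have hM : IsMult A.valuation ((EQ W)⁄Qb) := by
      refine ⟨isInt_EQ W _, ?_, ?_, ?_, val_nat_le _⟩
      · rw [val_Δ]
        exact val_int_lt _ hv hd
      · rw [EQK_eq, WeierstrassCurve.map_c₄, eq_intCast]
        exact val_int_eq_one_of_not_dvd _ hq hv (hss hd)
      · rw [EQK_eq, WeierstrassCurve.map_Δ, eq_intCast]
        exact_mod_cast hΔ
    exact hM.unip hτ hodd hvm hP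
  · have h1 : A.valuation ((EQ W)⁄Qb).Δ = 1 := by
      rw [val_Δ]
      exact val_int_eq_one_of_not_dvd _ hq hv hd
    have h2 := hτ.fix_good (isInt_EQ W _) h1 hodd hvm hP
    rw [h2, h2, two_nsmul]
    abel

theorem fix_model {q : ℕ} (hq : q.Prime)
    (hd : ¬ (q : ℤ) ∣ W.Δ) {A : ValuationSubring Qb}
    (hA : A.LiesOverPrime q) {σ : GQ} (hσ : σ ∈ A.inertiaSubgroupIn ℚ) {m : ℕ} (hodd : Odd m)
    (hqm : ¬ q ∣ m) {P : ((EQ W)⁄Qb).Point} (hP : m • P = 0) : σ • P = P := by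
  have hv := val_lt_of_liesOver hA
  have hτ : IsInert A.valuation σ := isInert_of_mem A hσ
  have hvm : A.valuation ((m : ℕ) : Qb) = 1 := by
    have : ¬ (q : ℤ) ∣ (m : ℤ) := by rwa [Int.natCast_dvd_natCast]
    exact_mod_cast val_int_eq_one_of_not_dvd A.valuation hq hv this
  have h1 : A.valuation ((EQ W)⁄Qb).Δ = 1 := by
    rw [val_Δ]
    exact val_int_eq_one_of_not_dvd _ hq hv hd
  exact hτ.fix_good (isInt_EQ W _) h1 hodd hvm hP

/-- torsion points -/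
abbrev TW (W : WeierstrassCurve ℤ) (m : ℕ) := Submodule.torsionBy ℤ ((EQ W)⁄Qb).Point m

/-- the Galois representation on torsion points -/
def repW (W : WeierstrassCurve ℤ) (m : ℕ) : GQ →* Module.End ℤ (TW W m) where
  toFun σ := (DistribSMul.toAddMonoidHom (TW W m) σ).toIntLinearMap
  map_one' := LinearMap.ext fun x => one_smul GQ x
  map_mul' σ σ' := LinearMap.ext fun x => mul_smul σ σ' x

theorem repW_apply (m : ℕ) (σ : GQ) (x : TW W m) : repW W m σ x = σ • x := rfl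

theorem nsmul_TW {m : ℕ} (x : TW W m) : m • (x : ((EQ W)⁄Qb).Point) = 0 := by
  have := (Submodule.mem_torsionBy_iff (m : ℤ) (x : ((EQ W)⁄Qb).Point)).mp x.2
  rwa [natCast_zsmul] at this

theorem coe_smul_TW {m : ℕ} (σ : GQ) (x : TW W m) :
    ((σ • x : TW W m) : ((EQ W)⁄Qb).Point) = σ • (x : ((EQ W)⁄Qb).Point) := rfl

theorem card_TW (hΔ : W.Δ ≠ 0) {m : ℕ} (hodd : Odd m) : Nat.card (TW W m) = m ^ 2 := by
  haveI := isElliptic_EQ hΔ
  exact EC.card_torsionBy (EQ W) hodd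

theorem finite_TW (hΔ : W.Δ ≠ 0) {m : ℕ} (hodd : Odd m) : Finite (TW W m) :=
  Nat.finite_of_card_ne_zero (by
    rw [card_TW hΔ hodd]; exact pow_ne_zero _ (by rintro rfl; simp at hodd))

theorem level_repW (hΔ : W.Δ ≠ 0) {m : ℕ} (hodd : Odd m) :
    ∃ L : IntermediateField ℚ (AlgebraicClosure ℚ),
    FiniteDimensional ℚ L ∧ ∀ σ : GQ, (∀ x ∈ L, σ x = x) → repW W m σ = 1 := by
  classical
  haveI := finite_TW hΔ hodd
  let cx : ((EQ W)⁄Qb).Point → Qb := fun P => match P with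
    | .zero => 0
    | .some x _ _ => x
  let cy : ((EQ W)⁄Qb).Point → Qb := fun P => match P with
    | .zero => 0
    | .some _ y _ => y
  have hV : (Set.range (Subtype.val : TW W m → ((EQ W)⁄Qb).Point)).Finite := Set.finite_range _
  set V : Set ((EQ W)⁄Qb).Point := Set.range (Subtype.val : TW W m → ((EQ W)⁄Qb).Point) with hVdef
  have hT'f : (cx '' V ∪ cy '' V).Finite := (hV.image _).union (hV.image _)
  haveI : Finite ↥(cx '' V ∪ cy '' V) := hT'f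
  refine ⟨IntermediateField.adjoin ℚ (cx '' V ∪ cy '' V),
    IntermediateField.finiteDimensional_adjoin fun x _ => Algebra.IsIntegral.isIntegral x,
    fun σ hσ => LinearMap.ext fun x => ?_⟩
  have h1 : (x : ((EQ W)⁄Qb).Point) ∈ V := ⟨x, rfl⟩
  have hx := hσ (cx x) (IntermediateField.subset_adjoin _ _ (Or.inl ⟨_, h1, rfl⟩))
  have hy := hσ (cy x) (IntermediateField.subset_adjoin _ _ (Or.inr ⟨_, h1, rfl⟩))
  rw [repW_apply]
  apply Subtype.ext
  change σ • (x : ((EQ W)⁄Qb).Point) = x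
  obtain ⟨x, hx'⟩ := x
  rcases x with _ | ⟨x, y, e⟩
  · rfl
  · rw [algEquiv_smul_def, map_some]
    exact EC.some_eq_some hx hy _ _

/-- faithfulness -/
theorem dvd_of_kill (hΔ : W.Δ ≠ 0) {p : ℕ} (hp : p.Prime) (hp2 : p ≠ 2) {n : ℕ} {r : ℤ}
    (hr : ∀ x : TW W (p ^ n), r • x = 0) : ((p ^ n : ℕ) : ℤ) ∣ r := by
  have hodd : Odd p := hp.odd_of_ne_two hp2
  -- `d = gcd (r, p ^ n) = p ^ k`
  obtain ⟨k, hk, hk'⟩ := (Nat.dvd_prime_pow hp).1 (Nat.gcd_dvd_right r.natAbs (p ^ n))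
  have hkill : ∀ x : ((EQ W)⁄Qb).Point, p ^ n • x = 0 → p ^ k • x = 0 := by
    intro x hx
    have hx' : x ∈ TW W (p ^ n) := by
      rw [Submodule.mem_torsionBy_iff, natCast_zsmul]; exact hx
    have h1 : r • x = 0 := congrArg Subtype.val (hr ⟨x, hx'⟩)
    have h2 : ((Int.gcd r ((p ^ n : ℕ) : ℤ) : ℕ) : ℤ) • x = 0 := by
      rw [Int.gcd_eq_gcd_ab, add_zsmul, mul_comm, mul_zsmul, h1, zsmul_zero, zero_add, mul_comm,
        mul_zsmul, natCast_zsmul, hx, zsmul_zero]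
    rw [Int.gcd, Int.natAbs_natCast, hk', natCast_zsmul] at h2
    exact h2
  have hle : Nat.card (TW W (p ^ n)) ≤ Nat.card (TW W (p ^ k)) := by
    haveI := finite_TW hΔ (hodd.pow (n := k))
    refine Nat.card_le_card_of_injective (fun x : TW W (p ^ n) =>
      (⟨x.1, by
        rw [Submodule.mem_torsionBy_iff, natCast_zsmul]
        exact hkill x.1 (nsmul_TW x)⟩ : TW W (p ^ k))) ?_
    intro x y hxy
    simp only [Subtype.mk.injEq] at hxy
    exact Subtype.ext hxy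
  rw [card_TW hΔ hodd.pow, card_TW hΔ hodd.pow] at hle
  have hnk : n ≤ k := by
    by_contra hlt
    push Not at hlt
    have h1 : p ^ k < p ^ n := Nat.pow_lt_pow_right hp.one_lt hlt
    exact absurd hle (not_le.mpr (Nat.pow_lt_pow_left h1 two_ne_zero))
  have hkn : k = n := le_antisymm hk hnk
  subst hkn
  have h3 : p ^ k ∣ r.natAbs := hk' ▸ Nat.gcd_dvd_left _ _
  exact Int.natCast_dvd.mpr h3

/-- the inertia groups at the primes of good reduction, `≠ p` -/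
def goodIn (W : WeierstrassCurve ℤ) (p : ℕ) : Set GQ :=
  {σ | ∃ q : ℕ, q.Prime ∧ q ≠ p ∧ ¬ (q : ℤ) ∣ W.Δ ∧ ∃ A : ValuationSubring (AlgebraicClosure ℚ),
    A.LiesOverPrime q ∧ σ ∈ A.inertiaSubgroupIn ℚ}

theorem not_dvd_pow {p q : ℕ} (hp : p.Prime) (hq : q.Prime) (hqp : q ≠ p) (n : ℕ) :
    ¬ q ∣ p ^ n := fun h => hqp ((Nat.prime_dvd_prime_iff_eq hq hp).1 (hq.dvd_of_dvd_pow h))

theorem isHG_W (hΔ : W.Δ ≠ 0) {p : ℕ} [hp : Fact p.Prime] (hp2 : p ≠ 2) {S : Set ℕ} (hpS : p ∈ S)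
    (hbad : ∀ ℓ : ℕ, ℓ.Prime → (ℓ : ℤ) ∣ W.Δ → ℓ ∈ S) (n : ℕ) :
    IsHG (fun l => W.apOfModel l) S p n (repW W (p ^ n)) ∧
      ∀ σ ∈ goodIn W p, repW W (p ^ n) σ = 1 := by
  have hodd : Odd p := hp.out.odd_of_ne_two hp2
  refine ⟨⟨⟨n, fun x => Subtype.ext (nsmul_TW x)⟩, level_repW hΔ hodd.pow, ?_, ?_⟩, ?_⟩
  · intro ℓ hℓ hℓS A hA σ hσ x
    haveI : Fact ℓ.Prime := ⟨hℓ⟩
    apply Subtype.ext
    have h1 := EllFrob.frobenius_rel W (fun h => hℓS (hbad ℓ hℓ h)) hA hσ (hodd.pow (n := n))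
      (not_dvd_pow hp.out hℓ (fun h => hℓS (h ▸ hpS)) n) (nsmul_TW x)
    rw [natCast_zsmul] at h1
    exact h1
  · intro r hr
    obtain ⟨b, hb⟩ := dvd_of_kill hΔ hp.out hp2 hr
    exact ⟨b, by rw [hb]; push_cast; rfl⟩
  · rintro σ ⟨q, hq, hqp, hd, A, hA, hσ⟩
    refine LinearMap.ext fun x => Subtype.ext ?_
    exact fix_model hq hd hA hσ hodd.pow (not_dvd_pow hp.out hq hqp n) (nsmul_TW x)

/-- the module is the group of `p ^ k`-torsion points -/
def IsTW (W : WeierstrassCurve ℤ) (p : ℕ) (X : Type) (i₁ : AddCommGroup X) (i₂ : Module ℤ X)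
    (ρ : GQ →* Module.End ℤ X) : Prop :=
  ∃ (k : ℕ) (e : X ≃ₗ[ℤ] TW W (p ^ k)), ∀ σ x, e (ρ σ x) = σ • e x

/-- the conclusion on finite levels -/
def LevG {R : Type} [CommRing R] (a : ℕ → R) (S : Set ℕ) (p : ℕ) [Fact p.Prime] {B : Type*}
    [CommRing B] (I : Ideal B) (χ : R →+* B)
    (Q : ∀ (X : Type) (_ : AddCommGroup X) (_ : Module R X), (GQ →* Module.End R X) → Prop)
    (t : GQ → B) : Prop :=
  ∀ n g, ∃ (X : Type) (i₁ : AddCommGroup X) (i₂ : Module R X)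
        (ρ : GQ →* Module.End R X), IsHG a S p n ρ ∧ Q X i₁ i₂ ρ ∧ ∃ (m : ℕ) (r : R),
          (∀ x : X, p ^ m • x = 0) ∧
          Ideal.Quotient.mk (I ^ n) (t g) = Ideal.Quotient.mk (I ^ n) (χ r) ∧
          ∀ x : X, ρ g x + (cyc (p ^ m) g).val • ρ g⁻¹ x = r • x

/-- evaluation of the trace -/
theorem LevG.trace_eq {R : Type} [CommRing R] {a : ℕ → R} {p : ℕ} [hp : Fact p.Prime]
    {S : Set ℕ} {B : Type*} [CommRing B] {I : Ideal B}
    [IsAdicComplete I B] (hpI : (p : B) ∈ I) {χ : R →+* B}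
    {Q : ∀ (X : Type) (_ : AddCommGroup X) (_ : Module R X), (GQ →* Module.End R X) → Prop}
    {t : GQ → B} (h : LevG a S p I χ Q t) {σ : GQ} {u : R}
    {d : ℕ} (hd : ∀ m : ℕ, cyc (p ^ m) σ = (d : ZMod (p ^ m)))
    (hu : ∀ (X : Type) (i₁ : AddCommGroup X) (i₂ : Module R X)
        (ρ : GQ →* Module.End R X), Q X i₁ i₂ ρ →
        ∀ x : X, ρ σ (ρ σ x) - u • ρ σ x + d • x = 0) : t σ = χ u := by
  refine eq_of_forall_mk_eq I fun n => ?_
  obtain ⟨X, i₁, i₂, ρ, hρ, hQ, m, r, hm, htr, hr⟩ := h n σ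
  have hone : ∀ x : X, (cyc (p ^ m) σ).val • x = d • x := by
    intro x
    have h4 : ((cyc (p ^ m) σ).val : ZMod (p ^ m)) = (d : ZMod (p ^ m)) := by
      rw [ZMod.natCast_zmod_val, hd]
    rw [ZMod.natCast_eq_natCast_iff] at h4
    obtain h5 | h5 := le_total (cyc (p ^ m) σ).val d
    · obtain ⟨c, hc⟩ := (Nat.modEq_iff_dvd' h5).mp h4
      have h6 : d = (cyc (p ^ m) σ).val + c * p ^ m := by
        rw [mul_comm]; omega
      conv_rhs => rw [h6]
      rw [add_smul, mul_smul, hm, smul_zero, add_zero]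
    · obtain ⟨c, hc⟩ := (Nat.modEq_iff_dvd' h5).mp h4.symm
      have h6 : (cyc (p ^ m) σ).val = d + c * p ^ m := by
        rw [mul_comm]; omega
      rw [h6, add_smul, mul_smul, hm, smul_zero, add_zero]
  have hinv : ∀ x : X, ρ σ (ρ σ⁻¹ x) = x := fun x => by
    rw [← Module.End.mul_apply, ← map_mul, mul_inv_cancel, map_one, Module.End.one_apply]
  have h1 : ∀ x : X, (r - u) • x = 0 := by
    intro x
    have h2 := hu X i₁ i₂ ρ hQ (ρ σ⁻¹ x)
    rw [hinv] at h2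
    rw [sub_smul, ← hr x, hone, ← h2]
    abel
  obtain ⟨b, hb⟩ := hρ.faithful _ h1
  rw [htr, ← sub_eq_zero, ← map_sub, Ideal.Quotient.eq_zero_iff_mem, ← map_sub, hb, map_mul, map_pow,
    map_natCast]
  exact Ideal.mul_mem_right _ _ (Ideal.pow_mem_pow hpI n)

/-- the conclusion on finite levels, for the curve -/
abbrev Lev (W : WeierstrassCurve ℤ) (S : Set ℕ) (p : ℕ) [Fact p.Prime] {B : Type*} [CommRing B]
    (I : Ideal B) (t : GQ → B) : Prop :=
  LevG (fun l => W.apOfModel l) S p I (Int.castRingHom B) (IsTW W p) t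

/-- **The `p`-adic pseudo-representation of an elliptic curve.** -/
theorem exists_pseudo (hΔ : W.Δ ≠ 0) {p : ℕ} [hp : Fact p.Prime] (hp2 : p ≠ 2) {S : Set ℕ}
    (hS : S.Finite) (hpS : p ∈ S) (hbad : ∀ ℓ : ℕ, ℓ.Prime → (ℓ : ℤ) ∣ W.Δ → ℓ ∈ S)
    {B : Type*} [CommRing B] {I : Ideal B} [IsAdicComplete I B] (hpI : (p : B) ∈ I) :
    ∃ t D : GQ → B, IsGoodPseudoRep I (fun l => ((W.apOfModel l : ℤ) : B)) S p (goodIn W p) t D ∧
      Lev W S p I t := by
  refine exists_goodPseudoRep' (R := ℤ) (a := fun l => W.apOfModel l) hpI (Int.castRingHom B) hS hpS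
    (goodIn W p) ?_ (IsTW W p) ?_
  · rintro σ ⟨q, hq, hqp, hd, A, hA, hσ⟩ k
    exact cyc_inertia (Nat.Coprime.pow_right _ ((Nat.coprime_primes hq hp.out).mpr hqp)) hA hσ
  · intro n
    exact ⟨TW W (p ^ n), inferInstance, inferInstance, repW W (p ^ n),
      isHG_W hΔ hp2 hpS hbad n, n, LinearEquiv.refl ℤ _, fun σ x => rfl⟩

/-- evaluation of the trace -/
theorem Lev.trace_eq {p : ℕ} [hp : Fact p.Prime] {S : Set ℕ} {B : Type*} [CommRing B] {I : Ideal B}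
    [IsAdicComplete I B] (hpI : (p : B) ∈ I) {t : GQ → B} (h : Lev W S p I t) {σ : GQ} {u : ℤ}
    {d : ℕ} (hd : ∀ m : ℕ, cyc (p ^ m) σ = (d : ZMod (p ^ m)))
    (hu : ∀ (k : ℕ) (x : TW W (p ^ k)), σ • σ • x - u • σ • x + d • x = 0) : t σ = (u : B) := by
  refine LevG.trace_eq hpI h hd fun X i₁ i₂ ρ hQ x => ?_
  obtain ⟨k, e, he⟩ := hQ
  apply e.injective
  rw [map_add, map_sub, e.map_smul, map_nsmul, he, he, _root_.map_zero]
  exact hu k _

/-- the trace at inertia -/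
theorem Lev.trace_inertia (hΔ : W.Δ ≠ 0) {p : ℕ} [hp : Fact p.Prime] (hp2 : p ≠ 2) {S : Set ℕ}
    {B : Type*} [CommRing B] {I : Ideal B} [IsAdicComplete I B] (hpI : (p : B) ∈ I) {t : GQ → B}
    (h : Lev W S p I t) {q : ℕ} (hq : q.Prime) (hqp : q ≠ p)
    (hss : (q : ℤ) ∣ W.Δ → ¬ (q : ℤ) ∣ W.c₄) {A : ValuationSubring Qb}
    (hA : A.LiesOverPrime q) {σ : GQ} (hσ : σ ∈ A.inertiaSubgroupIn ℚ) : t σ = 2 := by
  have hodd : Odd p := hp.out.odd_of_ne_two hp2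
  have := h.trace_eq hpI (σ := σ) (u := 2) (d := 1) (fun m => by
    rw [cyc_inertia (Nat.Coprime.pow_right _ ((Nat.coprime_primes hq hp.out).mpr hqp)) hA hσ,
      Nat.cast_one]) (fun k x => by
    apply Subtype.ext
    have h1 := unip_model hΔ hq hss hA hσ (hodd.pow (n := k)) (not_dvd_pow hp.out hq hqp k)
      (nsmul_TW x)
    rw [one_smul]
    have h2 : ((2 : ℤ) • σ • (x : ((EQ W)⁄Qb).Point)) = 2 • σ • (x : ((EQ W)⁄Qb).Point) := by
      rw [ofNat_zsmul]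
    change σ • σ • (x : ((EQ W)⁄Qb).Point) - (2 : ℤ) • σ • (x : ((EQ W)⁄Qb).Point) +
      (x : ((EQ W)⁄Qb).Point) = 0
    rw [h2]
    exact h1)
  rw [this]
  norm_num

/-- the trace at Frobenius elements -/
theorem Lev.trace_frob {p : ℕ} [hp : Fact p.Prime] (hp2 : p ≠ 2) {S : Set ℕ}
    {B : Type*} [CommRing B] {I : Ideal B} [IsAdicComplete I B] (hpI : (p : B) ∈ I) {t : GQ → B}
    (h : Lev W S p I t) {q : ℕ} (hq : q.Prime) (hqp : q ≠ p)
    (hd : ¬ (q : ℤ) ∣ W.Δ) {A : ValuationSubring Qb}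
    (hA : A.LiesOverPrime q) {σ : GQ} (hσ : A.IsFrobeniusAt σ q) :
    t σ = ((W.apOfModel q : ℤ) : B) := by
  have hodd : Odd p := hp.out.odd_of_ne_two hp2
  haveI : Fact q.Prime := ⟨hq⟩
  refine h.trace_eq hpI (σ := σ) (u := W.apOfModel q) (d := q) (fun m =>
    cyc_frobenius (Nat.Coprime.pow_right _ ((Nat.coprime_primes hq hp.out).mpr hqp)) hA hσ)
    (fun k x => Subtype.ext ?_)
  have h1 := EllFrob.frobenius_rel W hd hA hσ (hodd.pow (n := k))
      (not_dvd_pow hp.out hq hqp k) (nsmul_TW x)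
  rw [natCast_zsmul] at h1
  exact h1

end

end Fermat.Agent.CL
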