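import Fermat.Agent.EC.Frey

/-!
# A two-torsion point reducing to the node, for a general multiplicative model
-/

set_option autoImplicit false
set_option linter.unusedSectionVars false

namespace Fermat.Agent.CL

open WeierstrassCurve WeierstrassCurve.Affine WeierstrassCurve.Affine.Point
open Fermat.Agent.EC

section

variable {K : Type*} [Field K] {Γ₀ : Type*} [LinearOrderedCommGroupWithZero Γ₀]
  {v : Valuation K Γ₀}

/-- a monic quadratic polynomial with coefficients in the maximal ideal -/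
lemma lt_one_of_quad {z b c : K} (hb : v b < 1) (hc : v c < 1) (h : z ^ 2 + b * z + c = 0) :
    v z < 1 := by
  by_contra hz
  push Not at hz
  have h1 : z ^ 2 = -(b * z) - c := by linear_combination h
  have h2 := congrArg v h1
  rw [map_pow] at h2
  have h3 : v (-(b * z) - c) < v z ^ 2 := by
    refine lt_of_le_of_lt (v.map_sub _ _) (max_lt ?_ ?_)
    · rw [Valuation.map_neg, map_mul, sq]
      exact mul_lt_mul_of_pos_right (hb.trans_le hz) (zero_lt_one.trans_le hz)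
    · exact hc.trans_le (one_le_pow_of_one_le' hz 2)
  rw [← h2] at h3
  exact lt_irrefl _ h3

/-- a cubic with unit quadratic coefficient and small lower coefficients has a small root -/
lemma exists_small_root [IsAlgClosed K] {A B C D : K} (hA0 : A ≠ 0) (hB : v B = 1)
    (hC : v C < 1) (hD : v D < 1) :
    ∃ z, v z < 1 ∧ A * z ^ 3 + B * z ^ 2 + C * z + D = 0 := by
  have hdeg : (Polynomial.C A * Polynomial.X ^ 3 + Polynomial.C B * Polynomial.X ^ 2 +
      Polynomial.C C * Polynomial.X + Polynomial.C D).degree ≠ 0 := by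
    rw [Polynomial.degree_cubic hA0]; decide
  obtain ⟨z₁, hz₁⟩ := IsAlgClosed.exists_root _ hdeg
  simp only [Polynomial.IsRoot.def, Polynomial.eval_add, Polynomial.eval_mul, Polynomial.eval_pow,
    Polynomial.eval_X, Polynomial.eval_C] at hz₁
  by_cases hz : v z₁ < 1
  · exact ⟨z₁, hz, hz₁⟩
  push Not at hz
  have hz0 : z₁ ≠ 0 := by
    rintro rfl
    rw [_root_.map_zero] at hz
    exact absurd hz (not_le.mpr zero_lt_one)
  have hvz0 : 0 < v z₁ := zero_lt_one.trans_le hz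
  -- `c = - D / z₁`, `b = (c - C) / z₁`
  set c : K := -D / z₁ with hc
  set b : K := (c - C) / z₁ with hb
  have hcz : c * z₁ = -D := div_mul_cancel₀ _ hz0
  have hbz : b * z₁ = c - C := div_mul_cancel₀ _ hz0
  have hvc : v c < 1 := by
    rw [hc, map_div₀, Valuation.map_neg]
    exact (div_le_of_le_mul₀ zero_le zero_le (le_mul_of_one_le_right' hz)).trans_lt hD
  have hvcC : v (c - C) < 1 := v.map_sub_lt hvc hC
  have hvb : v b < 1 := by
    rw [hb, map_div₀]
    exact (div_le_of_le_mul₀ zero_le zero_le (le_mul_of_one_le_right' hz)).trans_lt hvcC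
  have hbe : b = B + A * z₁ := by
    have h2 : b * z₁ ^ 2 = (B + A * z₁) * z₁ ^ 2 := by
      linear_combination z₁ * hbz + hcz - hz₁
    exact mul_right_cancel₀ (pow_ne_zero 2 hz0) h2
  have hAz : v (A * z₁) = 1 := by
    have e : A * z₁ = b - B := by rw [hbe]; ring
    rw [e, Valuation.map_sub_swap, Valuation.map_sub_eq_of_lt_left _ (by rw [hB]; exact hvb), hB]
  -- the quadratic factor
  have hvA : v A * v z₁ = 1 := by rw [← map_mul]; exact hAz
  have hdiv : ∀ x y : K, x * z₁ = y → v y < 1 → v (x / A) < 1 := by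
    intro x y hxy hy
    have e : x / A = y / (A * z₁) := by
      rw [← hxy]; field_simp
    rw [e, map_div₀, hAz, div_one]
    exact hy
  have h1 : v (b / A) < 1 := hdiv b _ hbz hvcC
  have h2 : v (c / A) < 1 := hdiv c _ hcz (by rw [Valuation.map_neg]; exact hD)
  have hdeg2 : (Polynomial.X ^ 2 + Polynomial.C (b / A) * Polynomial.X +
      Polynomial.C (c / A)).degree ≠ 0 := by
    have : (Polynomial.X ^ 2 + Polynomial.C (b / A) * Polynomial.X +
      Polynomial.C (c / A)).degree = 2 := by compute_degree!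
    rw [this]; decide
  obtain ⟨z, hz'⟩ := IsAlgClosed.exists_root _ hdeg2
  simp only [Polynomial.IsRoot.def, Polynomial.eval_add, Polynomial.eval_mul, Polynomial.eval_pow,
    Polynomial.eval_X, Polynomial.eval_C] at hz'
  refine ⟨z, lt_one_of_quad h1 h2 hz', ?_⟩
  have hz'' : A * z ^ 2 + b * z + c = 0 := by
    have : A * (z ^ 2 + b / A * z + c / A) = A * z ^ 2 + b * z + c := by field_simp
    rw [← this, hz', mul_zero]
  have e1 : A * z ^ 3 + B * z ^ 2 + C * z + D = (z - z₁) * (A * z ^ 2 + b * z + c) := by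
    linear_combination (-z ^ 2) * hbe + z * hbz + hcz
  rw [e1, hz'', mul_zero]

variable (W : WeierstrassCurve K)

lemma quad_id (hc4 : W.c₄ ≠ 0) :
    6 * ((18 * W.b₆ - W.b₂ * W.b₄) / W.c₄) ^ 2 + W.b₂ * ((18 * W.b₆ - W.b₂ * W.b₄) / W.c₄) + W.b₄ =
      -72 * W.Δ / W.c₄ ^ 2 := by
  field_simp
  simp only [WeierstrassCurve.c₄, WeierstrassCurve.Δ]
  have := W.b_relation
  linear_combination (-18 * W.b₂ ^ 2) * this

lemma lin_id (hc4 : W.c₄ ≠ 0) :
    12 * ((18 * W.b₆ - W.b₂ * W.b₄) / W.c₄) + W.b₂ = -W.c₆ / W.c₄ := by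
  field_simp
  simp only [WeierstrassCurve.c₄, WeierstrassCurve.c₆]
  ring

lemma cub_id (hc4 : W.c₄ ≠ 0) :
    4 * ((18 * W.b₆ - W.b₂ * W.b₄) / W.c₄) ^ 3 + W.b₂ * ((18 * W.b₆ - W.b₂ * W.b₄) / W.c₄) ^ 2 +
      2 * W.b₄ * ((18 * W.b₆ - W.b₂ * W.b₄) / W.c₄) + W.b₆ =
      4 * W.c₆ * W.Δ / W.c₄ ^ 3 := by
  field_simp
  simp only [WeierstrassCurve.c₄, WeierstrassCurve.c₆, WeierstrassCurve.Δ]
  have := W.b_relation
  linear_combination (W.b₂ ^ 2 * (-W.b₂ ^ 3 + 36 * W.b₂ * W.b₄ - 216 * W.b₆)) * this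

variable {W}

/-- the model of multiplicative reduction -/
structure IsMult (v : Valuation K Γ₀) (W : WeierstrassCurve K) : Prop where
  int : IsInt v W
  Δ : v W.Δ < 1
  c₄ : v W.c₄ = 1
  Δ0 : W.Δ ≠ 0
  nat : ∀ n : ℕ, v (n : K) ≤ 1

lemma IsMult.val_mul_nat (h : IsMult v W) (n : ℕ) (x : K) : v ((n : K) * x) ≤ v x := by
  rw [map_mul]
  exact mul_le_of_le_one_left' (h.nat n)

lemma b₂_le (h : IsInt v W) (hn : ∀ n : ℕ, v (n : K) ≤ 1) : v W.b₂ ≤ 1 := by
  rw [WeierstrassCurve.b₂]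
  refine v.map_add_le ?_ ?_
  · rw [map_pow]; exact pow_le_one' h.a₁ 2
  · rw [map_mul]; exact mul_le_one' (by exact_mod_cast hn 4) h.a₂

lemma b₄_le (h : IsInt v W) (hn : ∀ n : ℕ, v (n : K) ≤ 1) : v W.b₄ ≤ 1 := by
  rw [WeierstrassCurve.b₄]
  refine v.map_add_le ?_ ?_
  · rw [map_mul]; exact mul_le_one' (by exact_mod_cast hn 2) h.a₄
  · rw [map_mul]; exact mul_le_one' h.a₁ h.a₃

lemma b₆_le (h : IsInt v W) (hn : ∀ n : ℕ, v (n : K) ≤ 1) : v W.b₆ ≤ 1 := by
  rw [WeierstrassCurve.b₆]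
  refine v.map_add_le ?_ ?_
  · rw [map_pow]; exact pow_le_one' h.a₃ 2
  · rw [map_mul]; exact mul_le_one' (by exact_mod_cast hn 4) h.a₆

/-- the `x`-coordinate of the node -/
def nodeX (W : WeierstrassCurve K) : K := (18 * W.b₆ - W.b₂ * W.b₄) / W.c₄

lemma IsMult.c₄0 (h : IsMult v W) : W.c₄ ≠ 0 := by
  intro h0
  have := h.c₄
  rw [h0, _root_.map_zero] at this
  exact zero_ne_one this

lemma IsMult.nodeX_le (h : IsMult v W) : v (nodeX W) ≤ 1 := by
  rw [nodeX, map_div₀, h.c₄, div_one]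
  refine (v.map_sub _ _).trans (max_le ?_ ?_)
  · rw [map_mul]; exact mul_le_one' (by exact_mod_cast h.nat 18) (b₆_le h.int h.nat)
  · rw [map_mul]; exact mul_le_one' (b₂_le h.int h.nat) (b₄_le h.int h.nat)

lemma IsMult.v_c₆ (h : IsMult v W) : v W.c₆ = 1 := by
  have h1 : W.c₆ ^ 2 = W.c₄ ^ 3 - ((1728 : ℕ) : K) * W.Δ := by
    have := W.c_relation
    push_cast
    linear_combination this
  have h2 := congrArg v h1
  rw [Valuation.map_sub_eq_of_lt_left, map_pow, map_pow, h.c₄, one_pow] at h2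
  · exact (pow_eq_one_iff.mp h2).resolve_right two_ne_zero
  · rw [map_pow, h.c₄, one_pow]
    exact (h.val_mul_nat _ _).trans_lt h.Δ

/-- **A two-torsion point reducing to the node.** -/
theorem IsMult.exists_pt [IsAlgClosed K] [CharZero K] (h : IsMult v W) :
    ∃ r t : K, IntT v W r t ∧ v (tA4 W r t) < 1 ∧ tA4 W r t ≠ 0 ∧
      v (W.a₁ ^ 2 + 4 * tA2 W r) = 1 ∧ v (r - nodeX W) < 1 := by
  have hc4 := h.c₄0
  have hn := h.nat
  set x₀ := nodeX W with hx₀
  have hB : v (12 * x₀ + W.b₂) = 1 := by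
    rw [hx₀, nodeX, lin_id W hc4, map_div₀, Valuation.map_neg, h.v_c₆, h.c₄, div_one]
  have hC : v (6 * x₀ ^ 2 + W.b₂ * x₀ + W.b₄) < 1 := by
    rw [hx₀, nodeX, quad_id W hc4, map_div₀, map_pow, h.c₄, one_pow, div_one]
    have e : (-72 : K) * W.Δ = -(((72 : ℕ) : K) * W.Δ) := by push_cast; ring
    rw [e, Valuation.map_neg]
    exact (h.val_mul_nat _ _).trans_lt h.Δ
  have hD : v (4 * x₀ ^ 3 + W.b₂ * x₀ ^ 2 + 2 * W.b₄ * x₀ + W.b₆) < 1 := by
    rw [hx₀, nodeX, cub_id W hc4, map_div₀, map_pow, h.c₄, one_pow, div_one]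
    have e : (4 : K) * W.c₆ * W.Δ = W.c₆ * (((4 : ℕ) : K) * W.Δ) := by push_cast; ring
    rw [e, map_mul, h.v_c₆, one_mul]
    exact (h.val_mul_nat _ _).trans_lt h.Δ
  obtain ⟨z, hz, hz0⟩ := exists_small_root (v := v) (A := 4) (B := 12 * x₀ + W.b₂)
    (C := 2 * (6 * x₀ ^ 2 + W.b₂ * x₀ + W.b₄))
    (D := 4 * x₀ ^ 3 + W.b₂ * x₀ ^ 2 + 2 * W.b₄ * x₀ + W.b₆) (by norm_num)
    hB
    (by
      have := h.val_mul_nat 2 (6 * x₀ ^ 2 + W.b₂ * x₀ + W.b₄)
      push_cast at this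
      exact this.trans_lt hC) hD
  set r := x₀ + z with hr
  set t : K := -(W.a₁ * r + W.a₃) / 2 with ht
  have h2t : 2 * t = -(W.a₁ * r + W.a₃) := by rw [ht]; field_simp
  have hΨ : 4 * r ^ 3 + W.b₂ * r ^ 2 + 2 * W.b₄ * r + W.b₆ = 0 := by
    rw [← hz0, hr]; ring
  have hvr : v r ≤ 1 := v.map_add_le h.nodeX_le hz.le
  have hE : W.toAffine.Equation r t := by
    rw [equation_iff]
    have h4 : (4 : K) ≠ 0 := by norm_num
    refine mul_left_cancel₀ h4 ?_
    simp only [WeierstrassCurve.b₂, WeierstrassCurve.b₄, WeierstrassCurve.b₆] at hΨ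
    linear_combination (2 * t + (W.a₁ * r + W.a₃)) * h2t - hΨ
  have hvt : v t ≤ 1 := h.int.y_integral hE hvr
  have hA2 : v (tA2 W r) ≤ 1 := by
    rw [tA2]
    refine v.map_add_le h.int.a₂ ?_
    rw [map_mul]; exact mul_le_one' (by exact_mod_cast hn 3) hvr
  have hA4 : v (tA4 W r t) ≤ 1 := by
    rw [tA4]
    refine (v.map_sub _ _).trans (max_le (v.map_add_le (v.map_add_le ?_ ?_) h.int.a₄) ?_)
    · rw [map_mul, map_pow]
      exact mul_le_one' (by exact_mod_cast hn 3) (pow_le_one' hvr 2)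
    · rw [map_mul, map_mul]
      exact mul_le_one' (mul_le_one' (by exact_mod_cast hn 2) h.int.a₂) hvr
    · rw [map_mul]; exact mul_le_one' h.int.a₁ hvt
  have hM : IntT v W r t := ⟨⟨hE, by rw [h2t]; ring⟩, h.int.a₁, hA2, hA4, hvr⟩
  have hB2e : W.a₁ ^ 2 + 4 * tA2 W r = (12 * x₀ + W.b₂) + 12 * z := by
    rw [hr, tA2, WeierstrassCurve.b₂]; ring
  have hB2 : v (W.a₁ ^ 2 + 4 * tA2 W r) = 1 := by
    rw [hB2e, Valuation.map_add_eq_of_lt_left, hB]
    rw [hB]
    have := h.val_mul_nat 12 z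
    push_cast at this
    exact this.trans_lt hz
  have h2A : 2 * tA4 W r t = (6 * x₀ ^ 2 + W.b₂ * x₀ + W.b₄) + ((12 * x₀ + W.b₂) * z + 6 * z ^ 2) := by
    rw [tA4]
    have e : 2 * (3 * r ^ 2 + 2 * W.a₂ * r + W.a₄ - W.a₁ * t) = 6 * r ^ 2 + W.b₂ * r + W.b₄ := by
      simp only [WeierstrassCurve.b₂, WeierstrassCurve.b₄]
      linear_combination (-W.a₁) * h2t
    rw [e, hr]
    ring
  have hv2A : v (2 * tA4 W r t) < 1 := by
    rw [h2A]
    refine v.map_add_lt hC (v.map_add_lt ?_ ?_)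
    · rw [map_mul, hB, one_mul]; exact hz
    · have := h.val_mul_nat 6 (z ^ 2)
      push_cast at this
      refine this.trans_lt ?_
      rw [map_pow]
      exact pow_lt_one₀ zero_le hz two_ne_zero
  have hΔe : W.Δ = tA4 W r t ^ 2 * ((W.a₁ ^ 2 + 4 * tA2 W r) ^ 2 - 64 * tA4 W r t) := by
    have h2 := h2t
    have hE' := hE
    rw [equation_iff] at hE'
    have e3 : W.a₃ = -(2 * t + W.a₁ * r) := by linear_combination h2t
    have e6 : W.a₆ = t ^ 2 + W.a₁ * r * t + W.a₃ * t - (r ^ 3 + W.a₂ * r ^ 2 + W.a₄ * r) := by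
      linear_combination (-1) * hE'
    rw [e3] at e6
    simp only [tA4, tA2, WeierstrassCurve.Δ, WeierstrassCurve.b₂, WeierstrassCurve.b₄,
      WeierstrassCurve.b₆, WeierstrassCurve.b₈]
    rw [e3, e6]
    ring
  have hA4lt : v (tA4 W r t) < 1 := by
    rcases (show v (2 : K) ≤ 1 by exact_mod_cast hn 2).lt_or_eq with h2 | h2
    · by_contra hge
      have h1 : v (tA4 W r t) = 1 := le_antisymm hA4 (not_lt.mp hge)
      have h3 := congrArg v hΔe
      have h64 : v (64 * tA4 W r t) < v ((W.a₁ ^ 2 + 4 * tA2 W r) ^ 2) := by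
        rw [map_pow, hB2, one_pow, map_mul, h1, mul_one, show (64 : K) = 2 ^ 6 by norm_num, map_pow]
        exact pow_lt_one₀ zero_le h2 (by norm_num)
      rw [map_mul, map_pow, h1, one_pow, one_mul, Valuation.map_sub_eq_of_lt_left _ h64, map_pow,
        hB2, one_pow] at h3
      have h5 := h.Δ
      rw [h3] at h5
      exact lt_irrefl _ h5
    · rw [map_mul, h2, one_mul] at hv2A
      exact hv2A
  refine ⟨r, t, hM, hA4lt, ?_, hB2, ?_⟩
  · intro h0
    apply h.Δ0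
    rw [hΔe, h0]
    ring
  · rw [hr, add_sub_cancel_left]
    exact hz

end

end Fermat.Agent.CL
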